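import Mathlib
import Fermat.Prelude.Def_CuspForm_HeckeAlgebra

set_option autoImplicit false

namespace Fermat.Agent.S22

open UpperHalfPlane
open scoped MatrixGroups ModularForm Manifold

/-- Holomorphic on the upper half plane, `h`-periodic, tending to zero at `i∞`. -/
structure IsCuspPer (h : ℝ) (F : ℍ → ℂ) : Prop where
  mdiff : MDiff F
  periodic : Function.Periodic (F ∘ ofComplex) h
  zero : IsZeroAtImInfty F

/-- Polynomial function of degree at most `n` on the upper half plane, from its coefficients. -/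
noncomputable def polyFun (n : ℕ) (c : Fin (n + 1) → ℂ) : ℍ → ℂ :=
  fun τ => ∑ i : Fin (n + 1), c i * (τ : ℂ) ^ (i : ℕ)

theorem polyFun_apply (n : ℕ) (c : Fin (n + 1) → ℂ) (τ : ℍ) :
    polyFun n c τ = ∑ i : Fin (n + 1), c i * (τ : ℂ) ^ (i : ℕ) := rfl

theorem polyFun_add (n : ℕ) (c c' : Fin (n + 1) → ℂ) :
    polyFun n (c + c') = polyFun n c + polyFun n c' := by
  funext τ
  simp [polyFun, add_mul, Finset.sum_add_distrib]

theorem polyFun_smul (n : ℕ) (a : ℂ) (c : Fin (n + 1) → ℂ) :
    polyFun n (a • c) = a • polyFun n c := by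
  funext τ
  simp [polyFun, Finset.mul_sum, mul_assoc]

theorem polyFun_zero (n : ℕ) : polyFun n 0 = 0 := by
  funext τ
  simp [polyFun]

theorem polyFun_neg (n : ℕ) (c : Fin (n + 1) → ℂ) : polyFun n (-c) = -polyFun n c := by
  funext τ
  simp [polyFun]

theorem polyFun_sub (n : ℕ) (c c' : Fin (n + 1) → ℂ) :
    polyFun n (c - c') = polyFun n c - polyFun n c' := by
  funext τ
  simp [polyFun, sub_mul, Finset.sum_sub_distrib]

theorem IsCuspPer.add {h : ℝ} {F G : ℍ → ℂ} (hF : IsCuspPer h F) (hG : IsCuspPer h G) :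
    IsCuspPer h (F + G) where
  mdiff := hF.mdiff.add hG.mdiff
  periodic := fun z => by
    have h1 := hF.periodic z
    have h2 := hG.periodic z
    simp only [Function.comp_apply, Pi.add_apply] at h1 h2 ⊢
    rw [h1, h2]
  zero := hF.zero.add hG.zero

theorem IsCuspPer.smul {h : ℝ} {F : ℍ → ℂ} (a : ℂ) (hF : IsCuspPer h F) :
    IsCuspPer h (a • F) where
  mdiff := hF.mdiff.const_smul a
  periodic := fun z => by
    have h1 := hF.periodic z
    simp only [Function.comp_apply, Pi.smul_apply] at h1 ⊢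
    rw [h1]
  zero := hF.zero.smul a

theorem IsCuspPer.neg {h : ℝ} {F : ℍ → ℂ} (hF : IsCuspPer h F) : IsCuspPer h (-F) := by
  have := hF.smul (-1)
  simpa using this

theorem IsCuspPer.sub {h : ℝ} {F G : ℍ → ℂ} (hF : IsCuspPer h F) (hG : IsCuspPer h G) :
    IsCuspPer h (F - G) := by
  rw [sub_eq_add_neg]
  exact hF.add hG.neg

theorem IsCuspPer.zero_fun (h : ℝ) : IsCuspPer h (0 : ℍ → ℂ) where
  mdiff := mdifferentiable_const
  periodic := fun z => rfl
  zero := by
    show Filter.ZeroAtFilter atImInfty (0 : ℍ → ℂ)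
    exact Filter.zero_zeroAtFilter _

theorem IsCuspPer.bounded {h : ℝ} {F : ℍ → ℂ} (hF : IsCuspPer h F) : IsBoundedAtImInfty F :=
  hF.zero.boundedAtFilter

end Fermat.Agent.S22
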