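import Mathlib
import Fermat.Agent.S22.Defs

set_option autoImplicit false

namespace Fermat.Agent.S22

open UpperHalfPlane Derivative
open scoped MatrixGroups ModularForm Manifold

/-- Derivative of the `q`-parameter. -/
theorem qCoeffD_hasDerivAt_qParam (h : ℝ) (z : ℂ) :
    HasDerivAt (Function.Periodic.qParam h)
      (Function.Periodic.qParam h z * (2 * Real.pi * Complex.I / h)) z := by
  have := (((hasDerivAt_id z).const_mul (2 * Real.pi * Complex.I)).div_const (h : ℂ)).cexp
  simp only [id_eq, mul_one] at this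
  exact this

/-- The function `G ∘ ofComplex` agrees near a point of the upper half plane with the
cusp function composed with the `q`-parameter. -/
theorem qCoeffD_eventuallyEq {h : ℝ} (hh : 0 < h) {G : ℍ → ℂ}
    (hper : Function.Periodic (G ∘ ofComplex) h) (τ : ℍ) :
    (G ∘ ofComplex) =ᶠ[nhds (τ : ℂ)]
      (cuspFunction h G ∘ Function.Periodic.qParam h) := by
  filter_upwards [isOpen_upperHalfPlaneSet.mem_nhds τ.im_pos] with w hw
  have h1 := eq_cuspFunction (⟨w, hw⟩ : ℍ) hh.ne' hper
  simp only [Function.comp_apply, ofComplex_apply_of_im_pos hw]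
  exact h1.symm

/-- Explicit formula for `D G` through the cusp function. -/
theorem qCoeffD_D_apply {h : ℝ} (hh : 0 < h) {G : ℍ → ℂ} (hG : MDiff G)
    (hper : Function.Periodic (G ∘ ofComplex) h) (hbdd : IsBoundedAtImInfty G) (τ : ℍ) :
    D G τ = (1 / (h : ℂ)) * (Function.Periodic.qParam h τ *
      deriv (cuspFunction h G) (Function.Periodic.qParam h τ)) := by
  have hq : ‖Function.Periodic.qParam h (τ : ℂ)‖ < 1 :=
    Function.Periodic.norm_qParam_lt_one hh τ.im_pos
  have hΦ : DifferentiableAt ℂ (cuspFunction h G) (Function.Periodic.qParam h (τ : ℂ)) :=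
    differentiableAt_cuspFunction hh hper hG hbdd hq
  have hcomp : HasDerivAt (cuspFunction h G ∘ Function.Periodic.qParam h)
      (deriv (cuspFunction h G) (Function.Periodic.qParam h τ) *
        (Function.Periodic.qParam h τ * (2 * Real.pi * Complex.I / h))) (τ : ℂ) :=
    hΦ.hasDerivAt.comp (τ : ℂ) (qCoeffD_hasDerivAt_qParam h τ)
  have hderiv : deriv (G ∘ ofComplex) (τ : ℂ) =
      deriv (cuspFunction h G) (Function.Periodic.qParam h τ) *
        (Function.Periodic.qParam h τ * (2 * Real.pi * Complex.I / h)) := by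
    rw [(qCoeffD_eventuallyEq hh hper τ).deriv_eq]
    exact hcomp.deriv
  have hh' : (h : ℂ) ≠ 0 := Complex.ofReal_ne_zero.mpr hh.ne'
  have hpi : (2 * Real.pi * Complex.I : ℂ) ≠ 0 := Complex.two_pi_I_ne_zero
  simp only [normalizedDerivOfComplex, hderiv]
  field_simp

/-- The `q`-parameter is periodic. -/
theorem qCoeffD_qParam_add {h : ℝ} (hh : h ≠ 0) (w : ℂ) :
    Function.Periodic.qParam h (w + h) = Function.Periodic.qParam h w := by
  have hh' : (h : ℂ) ≠ 0 := Complex.ofReal_ne_zero.mpr hh
  unfold Function.Periodic.qParam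
  have : 2 * (Real.pi : ℂ) * Complex.I * (w + h) / h =
      2 * Real.pi * Complex.I * w / h + 2 * Real.pi * Complex.I := by
    field_simp
  rw [this, Complex.exp_add, Complex.exp_two_pi_mul_I, mul_one]

theorem isCuspPer_D {h : ℝ} (hh : 0 < h) {G : ℍ → ℂ} (hG : MDiff G)
    (hper : Function.Periodic (G ∘ ofComplex) h) (hbdd : IsBoundedAtImInfty G) :
    IsCuspPer h (D G) where
  mdiff := normalizedDerivOfComplex_mdifferentiable hG
  periodic := fun w => by
    by_cases hw : 0 < w.im
    · have hw' : 0 < (w + h).im := by simpa using hw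
      simp only [Function.comp_apply, ofComplex_apply_of_im_pos hw,
        ofComplex_apply_of_im_pos hw']
      rw [qCoeffD_D_apply hh hG hper hbdd, qCoeffD_D_apply hh hG hper hbdd]
      have : Function.Periodic.qParam h ((⟨w + h, hw'⟩ : ℍ) : ℂ) =
          Function.Periodic.qParam h ((⟨w, hw⟩ : ℍ) : ℂ) := qCoeffD_qParam_add hh.ne' w
      rw [this]
    · have hw1 : w.im ≤ 0 := not_lt.mp hw
      have hw2 : (w + h).im ≤ 0 := by simpa using hw1
      simp only [Function.comp_apply]
      rw [ofComplex_apply_eq_of_im_nonpos hw2 hw1]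
  zero := by
    have hΦ : AnalyticAt ℂ (cuspFunction h G) 0 :=
      analyticAt_cuspFunction_zero hh hper hG hbdd
    have hcont : ContinuousAt
        (fun q : ℂ => (1 / (h : ℂ)) * (q * deriv (cuspFunction h G) q)) 0 :=
      continuousAt_const.mul (continuousAt_id.mul hΦ.deriv.continuousAt)
    have htend := hcont.tendsto.comp (qParam_tendsto_atImInfty hh)
    simp only [mul_zero, zero_mul] at htend
    have hfun : D G = (fun q : ℂ => (1 / (h : ℂ)) * (q * deriv (cuspFunction h G) q)) ∘
        (fun τ : ℍ => Function.Periodic.qParam h τ) := by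
      funext τ
      exact qCoeffD_D_apply hh hG hper hbdd τ
    show Filter.Tendsto (D G) atImInfty (nhds 0)
    rw [hfun]
    exact htend

/-- The cusp function of `D G` on the unit ball. -/
theorem qCoeffD_cuspFunction_D {h : ℝ} (hh : 0 < h) {G : ℍ → ℂ} (hG : MDiff G)
    (hper : Function.Periodic (G ∘ ofComplex) h) (hbdd : IsBoundedAtImInfty G) {q : ℂ}
    (hq : ‖q‖ < 1) :
    cuspFunction h (D G) q = (1 / (h : ℂ)) * (q * deriv (cuspFunction h G) q) := by
  rcases eq_or_ne q 0 with rfl | hq0
  · rw [(isCuspPer_D hh hG hper hbdd).zero.cuspFunction_apply_zero hh]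
    simp
  · have him : 0 < (Function.Periodic.invQParam h q).im :=
      Function.Periodic.im_invQParam_pos_of_norm_lt_one hh hq hq0
    have h1 : cuspFunction h (D G) q = (D G ∘ ofComplex) (Function.Periodic.invQParam h q) :=
      Function.Periodic.cuspFunction_eq_of_nonzero h _ hq0
    rw [h1, Function.comp_apply, ofComplex_apply_of_im_pos him,
      qCoeffD_D_apply hh hG hper hbdd]
    have : Function.Periodic.qParam h
        ((⟨Function.Periodic.invQParam h q, him⟩ : ℍ) : ℂ) = q :=
      Function.Periodic.qParam_right_inv hh.ne' hq0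
    rw [this]

/-- Iterated derivative at zero of `q * Φ'(q)`. -/
theorem qCoeffD_iteratedDeriv_mul_deriv {Φ : ℂ → ℂ} (hΦ : AnalyticAt ℂ Φ 0) (m : ℕ) :
    iteratedDeriv m (fun q : ℂ => q * deriv Φ q) 0 = m * iteratedDeriv m Φ 0 := by
  have hid : ContDiffAt ℂ m (fun a : ℂ => a) 0 := contDiffAt_id
  have hd : ContDiffAt ℂ m (deriv Φ) 0 := hΦ.deriv.contDiffAt
  have hmul := iteratedDeriv_fun_mul hid hd
  rw [hmul]
  simp only [iteratedDeriv_fun_id_zero]
  rcases m with _ | m
  · simp
  · rw [Finset.sum_eq_single 1]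
    · simp [iteratedDeriv_succ']
    · intro b _ hb
      simp [hb]
    · intro h1
      exact absurd (Finset.mem_range.mpr (by omega)) h1

theorem qCoeff_D {G : ℍ → ℂ} (hG : MDiff G)
    (hper : Function.Periodic (G ∘ ofComplex) 1) (hbdd : IsBoundedAtImInfty G) (m : ℕ) :
    ModularFormClass.qCoeff (D G) m = m * ModularFormClass.qCoeff G m := by
  have hΦ : AnalyticAt ℂ (cuspFunction 1 G) 0 :=
    analyticAt_cuspFunction_zero one_pos hper hG hbdd
  have hev : cuspFunction 1 (D G) =ᶠ[nhds 0] fun q : ℂ => q * deriv (cuspFunction 1 G) q := by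
    filter_upwards [Metric.ball_mem_nhds (0 : ℂ) one_pos] with q hq
    have hq' : ‖q‖ < 1 := by simpa using hq
    rw [qCoeffD_cuspFunction_D one_pos hG hper hbdd hq']
    simp
  unfold ModularFormClass.qCoeff
  rw [qExpansion_coeff, qExpansion_coeff, hev.iteratedDeriv_eq m,
    qCoeffD_iteratedDeriv_mul_deriv hΦ m]
  ring

end Fermat.Agent.S22
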