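import Mathlib
import Fermat.Prelude.Def_CuspForm_HeckeAlgebra
import Fermat.Agent.S22.Defs

set_option autoImplicit false

namespace Fermat.Agent.S22

open UpperHalfPlane Derivative
open scoped MatrixGroups ModularForm Manifold

theorem mdiff_iterate_D (m : ℕ) {F : ℍ → ℂ} (hF : MDiff F) : MDiff (D^[m] F) := by
  induction m with
  | zero => simpa using hF
  | succ m ih =>
    rw [Function.iterate_succ_apply']
    exact normalizedDerivOfComplex_mdifferentiable ih

theorem iterate_D_add (m : ℕ) {F G : ℍ → ℂ} (hF : MDiff F) (hG : MDiff G) :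
    D^[m] (F + G) = D^[m] F + D^[m] G := by
  induction m with
  | zero => simp
  | succ m ih =>
    rw [Function.iterate_succ_apply', Function.iterate_succ_apply', Function.iterate_succ_apply',
      ih, normalizedDerivOfComplex_add _ _ (mdiff_iterate_D m hF) (mdiff_iterate_D m hG)]

theorem iterate_D_sub (m : ℕ) {F G : ℍ → ℂ} (hF : MDiff F) (hG : MDiff G) :
    D^[m] (F - G) = D^[m] F - D^[m] G := by
  induction m with
  | zero => simp
  | succ m ih =>
    rw [Function.iterate_succ_apply', Function.iterate_succ_apply', Function.iterate_succ_apply',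
      ih, normalizedDerivOfComplex_sub _ _ (mdiff_iterate_D m hF) (mdiff_iterate_D m hG)]

theorem iterate_D_smul (m : ℕ) (c : ℂ) {F : ℍ → ℂ} (hF : MDiff F) :
    D^[m] (c • F) = c • D^[m] F := by
  induction m with
  | zero => simp
  | succ m ih =>
    rw [Function.iterate_succ_apply', Function.iterate_succ_apply',
      ih, normalizedDerivOfComplex_smul _ _ (mdiff_iterate_D m hF)]

theorem iterD_iterate_D_zero (m : ℕ) : D^[m] (0 : ℍ → ℂ) = 0 := by
  induction m with
  | zero => simp
  | succ m ih =>
    rw [Function.iterate_succ_apply', ih]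
    exact normalizedDerivOfComplex_const 0

theorem iterate_D_succ_const (m : ℕ) (c : ℂ) : D^[m + 1] (fun _ : ℍ => c) = 0 := by
  rw [Function.iterate_succ_apply, normalizedDerivOfComplex_const]
  exact iterD_iterate_D_zero m

end Fermat.Agent.S22
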