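import Mathlib
import Fermat.Prelude.Def_CuspForm_HeckeAlgebra
import Fermat.Agent.S22.Defs
import Fermat.Agent.S22.IterD

set_option autoImplicit false

namespace Fermat.Agent.S22

open UpperHalfPlane Derivative
open scoped MatrixGroups ModularForm Manifold Real

/-- The automorphy factor `τ ↦ c τ + d` as a function on the upper half plane. -/
noncomputable def bolJ (γ : SL(2, ℤ)) : ℍ → ℂ := fun z => denom γ z

theorem bolJ_apply (γ : SL(2, ℤ)) (z : ℍ) : bolJ γ z = denom γ z := rfl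

theorem bolJ_ne_zero (γ : SL(2, ℤ)) (z : ℍ) : bolJ γ z ≠ 0 := denom_ne_zero _ z

theorem bolJ_eq_slash (γ : SL(2, ℤ)) : bolJ γ = (fun _ : ℍ => (1 : ℂ)) ∣[(-1 : ℤ)] γ := by
  funext z
  rw [ModularForm.SL_slash_apply, bolJ_apply]
  simp

theorem bolJ_mdiff (γ : SL(2, ℤ)) : MDiff (bolJ γ) := by
  rw [bolJ_eq_slash]
  exact MDifferentiable.slash mdifferentiable_const _ _

theorem bol_D_bolJ (γ : SL(2, ℤ)) :
    D (bolJ γ) = fun _ : ℍ => ((γ 1 0 : ℤ) : ℂ) * (2 * π * Complex.I)⁻¹ := by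
  rw [bolJ_eq_slash, normalizedDerivOfComplex_SL_slash mdifferentiable_const,
    normalizedDerivOfComplex_const]
  funext z
  have hz := denom_ne_zero γ z
  simp only [Pi.sub_apply, ModularForm.SL_slash_apply, Pi.zero_apply, zero_mul, zero_sub]
  simp only [Int.cast_neg, Int.cast_one, neg_neg, zpow_one, one_mul]
  field_simp

theorem bol_slash_succ (n : ℕ) (F : ℍ → ℂ) (γ : SL(2, ℤ)) :
    F ∣[-((n + 1 : ℕ) : ℤ)] γ = bolJ γ * (F ∣[-(n : ℤ)] γ) := by
  funext z
  have hz := denom_ne_zero γ z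
  rw [Pi.mul_apply, ModularForm.SL_slash_apply, ModularForm.SL_slash_apply, bolJ_apply]
  simp only [neg_neg, zpow_natCast]
  rw [pow_succ]
  ring

theorem bol_leibniz (γ : SL(2, ℤ)) {H : ℍ → ℂ} (hH : MDiff H) (m : ℕ) :
    D^[m + 1] (bolJ γ * H) = bolJ γ * D^[m + 1] H +
      (((m : ℂ) + 1) * (((γ 1 0 : ℤ) : ℂ) * (2 * π * Complex.I)⁻¹)) • D^[m] H := by
  induction m with
  | zero =>
    simp only [Function.iterate_succ_apply', Function.iterate_zero, id_eq]
    rw [normalizedDerivOfComplex_mul _ _ (bolJ_mdiff γ) hH, bol_D_bolJ]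
    funext z
    simp only [Pi.add_apply, Pi.mul_apply, Pi.smul_apply, smul_eq_mul]
    push_cast
    ring
  | succ m ih =>
    rw [Function.iterate_succ_apply', ih]
    have h1 : MDiff (D^[m + 1] H) := mdiff_iterate_D (m + 1) hH
    have h2 : MDiff (D^[m] H) := mdiff_iterate_D m hH
    rw [normalizedDerivOfComplex_add _ _ ((bolJ_mdiff γ).mul h1) (h2.const_smul _),
      normalizedDerivOfComplex_mul _ _ (bolJ_mdiff γ) h1,
      normalizedDerivOfComplex_smul _ _ h2, bol_D_bolJ]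
    rw [← Function.iterate_succ_apply' D (m + 1) H, ← Function.iterate_succ_apply' D m H]
    funext z
    simp only [Pi.add_apply, Pi.mul_apply, Pi.smul_apply, smul_eq_mul]
    push_cast
    ring

theorem bol (n : ℕ) {F : ℍ → ℂ} (hF : MDiff F) (γ : SL(2, ℤ)) :
    D^[n + 1] (F ∣[-(n : ℤ)] γ) = (D^[n + 1] F) ∣[(n : ℤ) + 2] γ := by
  induction n generalizing F with
  | zero =>
    simp only [Function.iterate_succ_apply', Function.iterate_zero, id_eq, Nat.cast_zero,
      neg_zero, zero_add]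
    rw [normalizedDerivOfComplex_SL_slash hF]
    funext z
    simp
  | succ n ih =>
    have hH : MDiff (F ∣[-(n : ℤ)] γ) := MDifferentiable.slash hF _ _
    have hG : MDiff (D^[n + 1] F) := mdiff_iterate_D (n + 1) hF
    rw [bol_slash_succ, bol_leibniz γ hH (n + 1), ih hF,
      Function.iterate_succ_apply' D (n + 1) (F ∣[-(n : ℤ)] γ), ih hF,
      normalizedDerivOfComplex_SL_slash hG,
      Function.iterate_succ_apply' D (n + 1) F]
    funext z
    have hz := denom_ne_zero γ z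
    simp only [Pi.add_apply, Pi.mul_apply, Pi.smul_apply, smul_eq_mul, Pi.sub_apply,
      ModularForm.SL_slash_apply, bolJ_apply]
    have e1 : denom γ z ^ (-((n : ℤ) + 2 + 2)) = (denom γ z ^ (n + 4))⁻¹ := by
      rw [show -((n : ℤ) + 2 + 2) = -((n + 4 : ℕ) : ℤ) by push_cast; ring, zpow_neg,
        zpow_natCast]
    have e2 : denom γ z ^ (-((n : ℤ) + 2)) = (denom γ z ^ (n + 2))⁻¹ := by
      rw [show -((n : ℤ) + 2) = -((n + 2 : ℕ) : ℤ) by push_cast; ring, zpow_neg,
        zpow_natCast]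
    have e3 : denom γ z ^ (-(((n + 1 : ℕ) : ℤ) + 2)) = (denom γ z ^ (n + 3))⁻¹ := by
      rw [show -(((n + 1 : ℕ) : ℤ) + 2) = -((n + 3 : ℕ) : ℤ) by push_cast; ring, zpow_neg,
        zpow_natCast]
    rw [e1, e2, e3]
    push_cast
    field_simp
    ring

end Fermat.Agent.S22
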