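import Mathlib
import Fermat.Prelude.Def_CuspForm_HeckeAlgebra
import Fermat.Agent.S22.Defs

set_option autoImplicit false

namespace Fermat.Agent.S22

open UpperHalfPlane Derivative
open scoped MatrixGroups ModularForm Manifold

theorem polyZero_two_pi_I_ne_zero : (2 * (Real.pi : ℂ) * Complex.I) ≠ 0 := by
  simp [Real.pi_ne_zero, Complex.I_ne_zero]

/-- The complex derivative of `G ∘ ofComplex` in terms of `D G`. -/
theorem polyZero_deriv_comp (G : ℍ → ℂ) (z : ℂ) (hz : 0 < z.im) :
    deriv (G ∘ ofComplex) z = 2 * Real.pi * Complex.I * D G ⟨z, hz⟩ := by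
  have h := polyZero_two_pi_I_ne_zero
  simp only [normalizedDerivOfComplex]
  field_simp

/-- Derivative of a polynomial function given by coefficients, with shifted coefficients. -/
theorem polyZero_hasDerivAt (n : ℕ) (c : Fin (n + 1) → ℂ) (a : ℂ) (z : ℂ) :
    HasDerivAt (fun w : ℂ => ∑ i : Fin (n + 2),
        (Fin.cons a (fun i : Fin (n + 1) => 2 * Real.pi * Complex.I * c i / ((i : ℕ) + 1)) :
          Fin (n + 2) → ℂ) i * w ^ (i : ℕ))
      (2 * Real.pi * Complex.I * ∑ i : Fin (n + 1), c i * z ^ (i : ℕ)) z := by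
  have h1 : ∀ i : Fin (n + 2), HasDerivAt (fun w : ℂ =>
      (Fin.cons a (fun i : Fin (n + 1) => 2 * Real.pi * Complex.I * c i / ((i : ℕ) + 1)) :
          Fin (n + 2) → ℂ) i * w ^ (i : ℕ))
      ((Fin.cons a (fun i : Fin (n + 1) => 2 * Real.pi * Complex.I * c i / ((i : ℕ) + 1)) :
          Fin (n + 2) → ℂ) i * ((i : ℕ) * z ^ ((i : ℕ) - 1))) z := by
    intro i
    exact (hasDerivAt_pow (i : ℕ) z).const_mul _
  have h2 := HasDerivAt.fun_sum (u := Finset.univ) (fun i _ => h1 i)
  refine h2.congr_deriv ?_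
  rw [Fin.sum_univ_succ, Finset.mul_sum]
  simp only [Fin.cons_zero, Fin.val_zero, Nat.cast_zero, zero_mul, mul_zero, zero_add,
    Fin.cons_succ, Fin.val_succ, Nat.add_sub_cancel]
  refine Finset.sum_congr rfl fun i _ => ?_
  have hi : ((i : ℕ) : ℂ) + 1 ≠ 0 := by
    exact_mod_cast Nat.succ_ne_zero (i : ℕ)
  push_cast
  field_simp

theorem exists_polyFun_of_iterate_D_eq_zero (n : ℕ) {G : ℍ → ℂ} (hG : MDiff G)
    (h : D^[n + 1] G = 0) : ∃ c : Fin (n + 1) → ℂ, G = polyFun n c := by
  induction n generalizing G with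
  | zero =>
    have hD : D G = 0 := by simpa using h
    have hdiff : DifferentiableOn ℂ (G ∘ ofComplex) upperHalfPlaneSet :=
      UpperHalfPlane.mdifferentiable_iff.mp hG
    have hderiv : Set.EqOn (deriv (G ∘ ofComplex)) 0 upperHalfPlaneSet := by
      intro z hz
      rw [polyZero_deriv_comp G z hz, hD]
      simp
    refine ⟨fun _ => G UpperHalfPlane.I, ?_⟩
    funext τ
    have := isOpen_upperHalfPlaneSet.is_const_of_deriv_eq_zero
      (convex_halfSpace_im_gt 0).isPreconnected hdiff hderiv τ.im_pos UpperHalfPlane.I.im_pos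
    simp only [Function.comp_apply, ofComplex_apply] at this
    simp [polyFun, this]
  | succ n ih =>
    have h' : D^[n + 1] (D G) = 0 := by
      rw [← Function.iterate_succ_apply]; exact h
    obtain ⟨c, hc⟩ := ih (normalizedDerivOfComplex_mdifferentiable hG) h'
    have hdiff : DifferentiableOn ℂ (G ∘ ofComplex) upperHalfPlaneSet :=
      UpperHalfPlane.mdifferentiable_iff.mp hG
    have hP := polyZero_hasDerivAt n c 0
    have hdiffP : DifferentiableOn ℂ (fun w : ℂ => ∑ i : Fin (n + 2),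
        (Fin.cons 0 (fun i : Fin (n + 1) => 2 * Real.pi * Complex.I * c i / ((i : ℕ) + 1)) :
          Fin (n + 2) → ℂ) i * w ^ (i : ℕ)) upperHalfPlaneSet :=
      fun z _ => (hP z).differentiableAt.differentiableWithinAt
    have hderiv : Set.EqOn (deriv (G ∘ ofComplex)) (deriv (fun w : ℂ => ∑ i : Fin (n + 2),
        (Fin.cons 0 (fun i : Fin (n + 1) => 2 * Real.pi * Complex.I * c i / ((i : ℕ) + 1)) :
          Fin (n + 2) → ℂ) i * w ^ (i : ℕ))) upperHalfPlaneSet := by
      intro z hz
      rw [(hP z).deriv, polyZero_deriv_comp G z hz, hc]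
      rfl
    obtain ⟨a, ha⟩ := isOpen_upperHalfPlaneSet.exists_eq_add_of_deriv_eq
      (convex_halfSpace_im_gt 0).isPreconnected hdiff hdiffP hderiv
    refine ⟨Fin.cons a (fun i : Fin (n + 1) => 2 * Real.pi * Complex.I * c i / ((i : ℕ) + 1)), ?_⟩
    funext τ
    have := ha τ.im_pos
    simp only [Function.comp_apply, ofComplex_apply] at this
    rw [this, polyFun_apply]
    simp only [Fin.sum_univ_succ (n := n + 1), Fin.cons_zero, Fin.cons_succ, Fin.val_zero,
      pow_zero, mul_one]
    ring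

end Fermat.Agent.S22
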