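import Mathlib
import Fermat.Agent.S22.Defs

set_option autoImplicit false

namespace Fermat.Agent.S22

open UpperHalfPlane Derivative
open scoped MatrixGroups ModularForm Manifold

theorem primitive_hasDerivAt_qParam (h : ℝ) (z : ℂ) :
    HasDerivAt (Function.Periodic.qParam h)
      (Function.Periodic.qParam h z * (2 * Real.pi * Complex.I / h)) z := by
  unfold Function.Periodic.qParam
  have h1 : HasDerivAt (fun z : ℂ => 2 * Real.pi * Complex.I * z / h)
      (2 * Real.pi * Complex.I / h) z := by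
    have := ((hasDerivAt_id z).const_mul (2 * Real.pi * Complex.I)).div_const (h : ℂ)
    simpa using this
  exact h1.cexp

theorem primitive_qParam_add_period {h : ℝ} (hh : h ≠ 0) (z : ℂ) :
    Function.Periodic.qParam h (z + h) = Function.Periodic.qParam h z := by
  unfold Function.Periodic.qParam
  have hh' : (h : ℂ) ≠ 0 := Complex.ofReal_ne_zero.mpr hh
  have : 2 * Real.pi * Complex.I * (z + h) / h
      = 2 * Real.pi * Complex.I * z / h + 2 * Real.pi * Complex.I := by
    field_simp
  rw [this, Complex.exp_add, Complex.exp_two_pi_mul_I, mul_one]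

theorem IsCuspPer.exists_primitive {h : ℝ} (hh : 0 < h) {g : ℍ → ℂ} (hg : IsCuspPer h g) :
    ∃ G : ℍ → ℂ, IsCuspPer h G ∧ D G = g := by
  have hφd : DifferentiableOn ℂ (cuspFunction h g) (Metric.ball 0 1) :=
    differentiableOn_cuspFunction_ball hh hg.periodic hg.mdiff hg.bounded
  have hφ0 : cuspFunction h g 0 = 0 := hg.zero.cuspFunction_apply_zero hh
  have hball : Metric.ball (0 : ℂ) 1 ∈ nhds (0 : ℂ) := Metric.ball_mem_nhds 0 one_pos
  have hψd : DifferentiableOn ℂ (dslope (cuspFunction h g) 0) (Metric.ball 0 1) :=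
    (Complex.differentiableOn_dslope hball).mpr hφd
  obtain ⟨Ψ, hΨ0, hΨ⟩ := hψd.isExactOn_ball.with_val_at 0 0
  have hqball : ∀ z : ℂ, 0 < z.im → Function.Periodic.qParam h z ∈ Metric.ball (0 : ℂ) 1 :=
    fun z hz => mem_ball_zero_iff.mpr (Function.Periodic.norm_qParam_lt_one hh hz)
  have hderiv : ∀ z : ℂ, 0 < z.im →
      HasDerivAt (fun z : ℂ => (h : ℂ) * Ψ (Function.Periodic.qParam h z))
        ((h : ℂ) * (dslope (cuspFunction h g) 0 (Function.Periodic.qParam h z) *
          (Function.Periodic.qParam h z * (2 * Real.pi * Complex.I / h)))) z :=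
    fun z hz => ((hΨ _ (hqball z hz)).comp z (primitive_hasDerivAt_qParam h z)).const_mul (h : ℂ)
  have hcomp : ∀ z : ℂ, 0 < z.im →
      ((fun τ : ℍ => (h : ℂ) * Ψ (Function.Periodic.qParam h τ)) ∘ ofComplex) z
        = (h : ℂ) * Ψ (Function.Periodic.qParam h z) := by
    intro z hz
    simp [Function.comp_apply, ofComplex_apply_of_im_pos hz]
  refine ⟨fun τ => h * Ψ (Function.Periodic.qParam h τ), ⟨?_, ?_, ?_⟩, ?_⟩
  · rw [UpperHalfPlane.mdifferentiable_iff]
    have key : DifferentiableOn ℂ (fun z : ℂ => (h : ℂ) * Ψ (Function.Periodic.qParam h z))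
        upperHalfPlaneSet :=
      fun z hz => (hderiv z hz).differentiableAt.differentiableWithinAt
    exact key.congr (fun z hz => hcomp z hz)
  · intro w
    by_cases hw : 0 < Complex.im w
    · have hw' : 0 < Complex.im (w + h) := by simp [hw]
      rw [hcomp _ hw', hcomp _ hw, primitive_qParam_add_period hh.ne']
    · have hw0 : Complex.im w ≤ 0 := not_lt.mp hw
      have hw' : Complex.im (w + h) ≤ 0 := by simpa using hw0
      simp [ofComplex_apply_of_im_nonpos hw', ofComplex_apply_of_im_nonpos hw0]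
  · show Filter.Tendsto (fun τ : ℍ => (h : ℂ) * Ψ (Function.Periodic.qParam h τ)) atImInfty
      (nhds 0)
    have hc : ContinuousAt Ψ 0 := (hΨ 0 (Metric.mem_ball_self one_pos)).continuousAt
    have ht : Filter.Tendsto (fun τ : ℍ => Ψ (Function.Periodic.qParam h τ)) atImInfty
        (nhds (Ψ 0)) := hc.tendsto.comp (qParam_tendsto_atImInfty hh)
    have := ht.const_mul (h : ℂ)
    rwa [hΨ0, mul_zero] at this
  · funext τ
    show (2 * Real.pi * Complex.I)⁻¹ *
      deriv ((fun τ : ℍ => (h : ℂ) * Ψ (Function.Periodic.qParam h τ)) ∘ ofComplex) τ = g τ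
    have hev : ((fun τ : ℍ => (h : ℂ) * Ψ (Function.Periodic.qParam h τ)) ∘ ofComplex)
        =ᶠ[nhds (τ : ℂ)] fun z : ℂ => (h : ℂ) * Ψ (Function.Periodic.qParam h z) := by
      filter_upwards [isOpen_upperHalfPlaneSet.mem_nhds τ.im_pos] with z hz
      exact hcomp z hz
    rw [hev.deriv_eq, (hderiv τ τ.im_pos).deriv]
    have hq0 : Function.Periodic.qParam h (τ : ℂ) ≠ 0 := Function.Periodic.qParam_ne_zero _
    have hgτ : cuspFunction h g (Function.Periodic.qParam h τ) = g τ :=
      eq_cuspFunction τ hh.ne' hg.periodic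
    rw [dslope_of_ne _ hq0, slope_def_field, hφ0, sub_zero, sub_zero, hgτ]
    have hh' : (h : ℂ) ≠ 0 := Complex.ofReal_ne_zero.mpr hh.ne'
    have hpi : (Real.pi : ℂ) ≠ 0 := Complex.ofReal_ne_zero.mpr Real.pi_ne_zero
    field_simp

end Fermat.Agent.S22
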