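import Mathlib
import Fermat.Prelude.Def_CuspForm_HeckeAlgebra
import Fermat.Prelude.Thm_Subgroup_IsArithmetic_exists_nat_mem_strictPeriods_conj
import Fermat.Agent.S22.Defs
import Fermat.Agent.S22.IterD
import Fermat.Agent.S22.Bol
import Fermat.Agent.S22.PolyZero
import Fermat.Agent.S22.Primitive

set_option autoImplicit false

namespace Fermat.Agent.S22

open UpperHalfPlane Derivative
open scoped MatrixGroups ModularForm Manifold Pointwise

/-- A polynomial function on the upper half plane that is periodic is constant. -/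
theorem injective_polyFun_const_of_periodic (n : ℕ) (c : Fin (n + 1) → ℂ) {M : ℝ} (hM : 0 < M)
    (hper : Function.Periodic (polyFun n c ∘ ofComplex) M) :
    ∃ a : ℂ, polyFun n c = fun _ => a := by
  classical
  let P : Polynomial ℂ := ∑ i : Fin (n + 1), Polynomial.C (c i) * Polynomial.X ^ (i : ℕ)
  have hP : ∀ τ : ℍ, polyFun n c τ = P.eval (τ : ℂ) := by
    intro τ
    simp [P, polyFun, Polynomial.eval_finsetSum]
  have hval : ∀ m : ℕ, P.eval (Complex.I + m * M) = P.eval Complex.I := by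
    intro m
    have h1 := (hper.nat_mul m) Complex.I
    have him : 0 < (Complex.I + (m : ℂ) * (M : ℂ)).im := by simp
    have him' : 0 < (Complex.I).im := by simp
    simp only [Function.comp_apply] at h1
    rw [hP, hP, ofComplex_apply_of_im_pos him, ofComplex_apply_of_im_pos him'] at h1
    simpa using h1
  have hQ : P - Polynomial.C (P.eval Complex.I) = 0 := by
    apply Polynomial.eq_zero_of_infinite_isRoot
    have hinj : Function.Injective (fun m : ℕ => Complex.I + (m : ℂ) * (M : ℂ)) := by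
      intro a b hab
      have : ((a : ℂ) * (M : ℂ)) = (b : ℂ) * (M : ℂ) := by simpa using hab
      have hM' : (M : ℂ) ≠ 0 := by exact_mod_cast hM.ne'
      exact_mod_cast mul_right_cancel₀ hM' this
    refine Set.infinite_of_injective_forall_mem hinj ?_
    intro m
    simp [Polynomial.IsRoot, hval m]
  refine ⟨P.eval Complex.I, ?_⟩
  funext τ
  rw [hP]
  have := congrArg (Polynomial.eval (τ : ℂ)) hQ
  simpa [sub_eq_zero] using this

/-- Iterated primitives of a cuspidal periodic function (local copy, by induction). -/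
theorem injective_exists_iterate_primitive {h : ℝ} (hh : 0 < h) (m : ℕ) {g : ℍ → ℂ}
    (hg : IsCuspPer h g) : ∃ G : ℍ → ℂ, IsCuspPer h G ∧ D^[m] G = g := by
  induction m generalizing g with
  | zero => exact ⟨g, hg, rfl⟩
  | succ m ih =>
    obtain ⟨G1, hG1, hDG1⟩ := IsCuspPer.exists_primitive hh hg
    obtain ⟨G, hG, hDG⟩ := ih hG1
    refine ⟨G, hG, ?_⟩
    rw [Function.iterate_succ_apply', hDG, hDG1]

open ConjAct Pointwise in
/-- The slash-invariant form of weight `k` attached to an invariant function. -/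
noncomputable def injectiveSIF {N : ℕ} (k : ℤ) (F : ℍ → ℂ)
    (hinv : ∀ γ ∈ CongruenceSubgroup.Gamma0 N, F ∣[k] γ = F) :
    SlashInvariantForm (CongruenceSubgroup.Gamma0 N : Subgroup (GL (Fin 2) ℝ)) k where
  toFun := F
  slash_action_eq' := by
    rintro γ ⟨γ', hγ', rfl⟩
    exact hinv γ' hγ'

open ConjAct Pointwise in
theorem injective_periodic_slash {N : ℕ} [NeZero N] (k : ℤ) (F : ℍ → ℂ)
    (hinv : ∀ γ ∈ CongruenceSubgroup.Gamma0 N, F ∣[k] γ = F) {M : ℕ}
    (hM : ∀ γ : SL(2, ℤ), (M : ℝ) ∈ (ConjAct.toConjAct (Matrix.SpecialLinearGroup.mapGL ℝ γ) •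
      (CongruenceSubgroup.Gamma0 N : Subgroup (GL (Fin 2) ℝ))).strictPeriods) (σ : SL(2, ℤ)) :
    Function.Periodic ((F ∣[k] σ) ∘ ofComplex) ((M : ℝ) : ℂ) := by
  have h1 := hM σ⁻¹
  rw [map_inv] at h1
  exact SlashInvariantFormClass.periodic_comp_ofComplex
    (SlashInvariantForm.translate (injectiveSIF k F hinv) (Matrix.SpecialLinearGroup.mapGL ℝ σ)) h1

/-- The translate of a cusp form on `Gamma0 N` by an element of `SL(2, ℤ)` is cuspidal periodic. -/
theorem injective_isCuspPer_slash {N : ℕ} [NeZero N] {k : ℤ}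
    (f : CuspForm (CongruenceSubgroup.Gamma0 N) k) {M : ℕ}
    (hM : ∀ γ : SL(2, ℤ), (M : ℝ) ∈ (ConjAct.toConjAct (Matrix.SpecialLinearGroup.mapGL ℝ γ) •
      (CongruenceSubgroup.Gamma0 N : Subgroup (GL (Fin 2) ℝ))).strictPeriods) (σ : SL(2, ℤ)) :
    IsCuspPer M (⇑f ∣[k] σ) where
  mdiff := (CuspFormClass.holo f).slash k _
  periodic := injective_periodic_slash k ⇑f
    (fun γ hγ => SlashInvariantFormClass.slash_action_eq f _ ⟨γ, hγ, rfl⟩) hM σ
  zero := by
    have hc : IsCusp (Matrix.SpecialLinearGroup.mapGL ℝ σ • OnePoint.infty)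
        (CongruenceSubgroup.Gamma0 N : Subgroup (GL (Fin 2) ℝ)) := by
      rw [Subgroup.IsArithmetic.isCusp_iff_isCusp_SL2Z, isCusp_SL2Z_iff']
      exact ⟨σ, rfl⟩
    exact CuspFormClass.zero_at_cusps f hc _ rfl

theorem injective_isBoundedAtImInfty_slash {N : ℕ} [NeZero N] (n : ℕ)
    (f : CuspForm (CongruenceSubgroup.Gamma0 N) ((n : ℤ) + 2)) (F : ℍ → ℂ) (hF : IsCuspPer 1 F)
    (hDF : D^[n + 1] F = ⇑f)
    (hinv : ∀ γ ∈ CongruenceSubgroup.Gamma0 N, F ∣[-(n : ℤ)] γ = F) (σ : SL(2, ℤ)) :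
    IsBoundedAtImInfty (F ∣[-(n : ℤ)] σ) := by
  obtain ⟨M, hM0, hM⟩ := Subgroup.IsArithmetic.exists_nat_mem_strictPeriods_conj
    (CongruenceSubgroup.Gamma0 N : Subgroup (GL (Fin 2) ℝ))
  have hMR : (0 : ℝ) < (M : ℝ) := by exact_mod_cast hM0
  have hfσ := injective_isCuspPer_slash f hM σ
  obtain ⟨G, hG, hDG⟩ := injective_exists_iterate_primitive hMR (n + 1) hfσ
  have hFσ : MDiff (F ∣[-(n : ℤ)] σ) := hF.mdiff.slash _ _
  have hbol : D^[n + 1] (F ∣[-(n : ℤ)] σ) = ⇑f ∣[(n : ℤ) + 2] σ := by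
    rw [bol n hF.mdiff σ, hDF]
  have hzero : D^[n + 1] (F ∣[-(n : ℤ)] σ - G) = 0 := by
    rw [iterate_D_sub (n + 1) hFσ hG.mdiff, hbol, hDG, sub_self]
  obtain ⟨c, hc⟩ := exists_polyFun_of_iterate_D_eq_zero n (hFσ.sub hG.mdiff) hzero
  have hper : Function.Periodic (polyFun n c ∘ ofComplex) ((M : ℝ) : ℂ) := by
    rw [← hc]
    intro z
    have h1 := injective_periodic_slash (-(n : ℤ)) F hinv hM σ z
    have h2 := hG.periodic z
    simp only [Function.comp_apply, Pi.sub_apply] at h1 h2 ⊢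
    rw [h1, h2]
  obtain ⟨a, ha⟩ := injective_polyFun_const_of_periodic n c hMR hper
  have hFG : F ∣[-(n : ℤ)] σ = G + fun _ => a := by
    rw [← ha, ← hc]; abel
  rw [hFG]
  exact hG.bounded.add (Filter.const_boundedAtFilter _ a)

/-- The modular form of weight `-n` attached to an invariant Eichler integral. -/
noncomputable def injectiveMF {N : ℕ} [NeZero N] (n : ℕ)
    (f : CuspForm (CongruenceSubgroup.Gamma0 N) ((n : ℤ) + 2)) (F : ℍ → ℂ) (hF : IsCuspPer 1 F)
    (hDF : D^[n + 1] F = ⇑f)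
    (hinv : ∀ γ ∈ CongruenceSubgroup.Gamma0 N, F ∣[-(n : ℤ)] γ = F) :
    ModularForm (CongruenceSubgroup.Gamma0 N : Subgroup (GL (Fin 2) ℝ)) (-(n : ℤ)) where
  toSlashInvariantForm := injectiveSIF (-(n : ℤ)) F hinv
  holo' := hF.mdiff
  bdd_at_cusps' := by
    intro c hc
    rw [Subgroup.IsArithmetic.isCusp_iff_isCusp_SL2Z] at hc
    rw [OnePoint.isBoundedAt_iff_forall_SL2Z hc]
    intro σ _
    exact injective_isBoundedAtImInfty_slash n f F hF hDF hinv σ

theorem eq_zero_of_invariant_eichler {N : ℕ} [NeZero N] (n : ℕ)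
    (f : CuspForm (CongruenceSubgroup.Gamma0 N) ((n : ℤ) + 2)) (F : ℍ → ℂ) (hF : IsCuspPer 1 F)
    (hDF : D^[n + 1] F = ⇑f)
    (hinv : ∀ γ ∈ CongruenceSubgroup.Gamma0 N, F ∣[-(n : ℤ)] γ = F) : f = 0 := by
  have hconst : ∃ a : ℂ, F = fun _ => a := by
    rcases Nat.eq_zero_or_pos n with rfl | hn
    · have h0 : (-((0 : ℕ) : ℤ)) = 0 := by simp
      obtain ⟨a, ha⟩ := ModularForm.eq_const_of_weight_zero
        (ModularForm.mcast h0 (injectiveMF 0 f F hF hDF hinv))
      exact ⟨a, ha⟩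
    · have hneg : (-(n : ℤ)) < 0 := by
        have : (0 : ℤ) < n := by exact_mod_cast hn
        omega
      have h0 := ModularForm.isZero_of_neg_weight hneg (injectiveMF n f F hF hDF hinv)
      refine ⟨0, ?_⟩
      have : (⇑(injectiveMF n f F hF hDF hinv) : ℍ → ℂ) = 0 := by rw [h0]; rfl
      exact this
  obtain ⟨a, rfl⟩ := hconst
  rw [iterate_D_succ_const] at hDF
  exact DFunLike.coe_injective hDF.symm

end Fermat.Agent.S22
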