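import Mathlib
import Fermat.Prelude.Def_CuspForm_HeckeAlgebra
import Fermat.Prelude.Thm_ModularForm_sturm_bound_Gamma0
import Fermat.Prelude.Thm_CongruenceSubgroup_one_mem_strictPeriods_Gamma0
import Fermat.Agent.S22.Defs

set_option autoImplicit false

namespace Fermat.Agent.S22

open UpperHalfPlane
open scoped MatrixGroups ModularForm Manifold

theorem smallWeight_neg_one_mem_Gamma0 (N : ℕ) :
    (-1 : SL(2, ℤ)) ∈ CongruenceSubgroup.Gamma0 N := by
  rw [CongruenceSubgroup.Gamma0_mem]
  simp

/-- Cusp forms of weight at most one on `Γ₀(N)` vanish. -/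
theorem cuspForm_eq_zero_of_weight_le_one {N : ℕ} [NeZero N] {k : ℤ} (hk : k ≤ 1)
    (f : CuspForm (CongruenceSubgroup.Gamma0 N) k) : f = 0 := by
  rcases lt_or_eq_of_le hk with hk0 | rfl
  · have hF : (ModularFormClass.modularForm f :
        ModularForm (CongruenceSubgroup.Gamma0 N) k) = 0 := by
      apply ModularForm.sturm_bound_Gamma0 N
      intro n hn
      have hn0 : n = 0 := by
        have hle : k * ((CongruenceSubgroup.Gamma0 N).index : ℤ) ≤ 0 :=
          mul_nonpos_of_nonpos_of_nonneg (by omega) (by positivity)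
        have : (k * ((CongruenceSubgroup.Gamma0 N).index : ℤ)).toNat = 0 := by omega
        rw [this] at hn
        omega
      subst hn0
      exact CuspFormClass.qExpansion_coeff_zero f one_pos
        (CongruenceSubgroup.one_mem_strictPeriods_Gamma0 N)
    ext z
    have := congrArg (fun g : ModularForm (CongruenceSubgroup.Gamma0 N) k => g z) hF
    simpa using this
  · ext z
    have hf := SlashInvariantForm.slash_action_eqn_SL'' f (smallWeight_neg_one_mem_Gamma0 N) z
    have h1 : ((-1 : SL(2, ℤ)) • z) = z := by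
      simp
    have h2 : denom (Matrix.SpecialLinearGroup.toGL
        ((Matrix.SpecialLinearGroup.map (Int.castRingHom ℝ)) (-1 : SL(2, ℤ)))) (z : ℂ) = -1 := by
      simp [denom]
    rw [h1, h2] at hf
    have h3 : (2 : ℂ) * f z = 0 := by linear_combination hf
    simpa using h3

/-- A cusp form on `Γ₀(N)` is holomorphic, `1`-periodic and zero at `i∞`. -/
theorem isCuspPer_of_cuspForm {N : ℕ} [NeZero N] {k : ℤ}
    (f : CuspForm (CongruenceSubgroup.Gamma0 N) k) : IsCuspPer 1 ⇑f where
  mdiff := CuspFormClass.holo f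
  periodic := SlashInvariantFormClass.periodic_comp_ofComplex f
    (CongruenceSubgroup.one_mem_strictPeriods_Gamma0 N)
  zero := by
    have : Fact (IsCusp OnePoint.infty
        (CongruenceSubgroup.Gamma0 N : Subgroup (GL (Fin 2) ℝ))) :=
      ⟨Subgroup.isCusp_of_mem_strictPeriods one_pos
        (CongruenceSubgroup.one_mem_strictPeriods_Gamma0 N)⟩
    exact CuspFormClass.zero_at_infty f

end Fermat.Agent.S22
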