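import Mathlib
import Fermat.Prelude.Def_CuspForm_HeckeAlgebra
import Fermat.Prelude.Thm_UpperHalfPlane_eq_of_forall_qCoeff_eq
import Fermat.Agent.S22.Defs
import Fermat.Agent.S22.IterD
import Fermat.Agent.S22.Primitive
import Fermat.Agent.S22.QCoeffD

set_option autoImplicit false

namespace Fermat.Agent.S22

open UpperHalfPlane Derivative
open scoped MatrixGroups ModularForm Manifold

theorem IsCuspPer.exists_iterate_primitive {h : ℝ} (hh : 0 < h) (m : ℕ) {g : ℍ → ℂ}
    (hg : IsCuspPer h g) : ∃ G : ℍ → ℂ, IsCuspPer h G ∧ D^[m] G = g := by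
  induction m generalizing g with
  | zero => exact ⟨g, hg, rfl⟩
  | succ m ih =>
    obtain ⟨G₁, hG₁, h1⟩ := ih hg
    obtain ⟨G, hG, h2⟩ := hG₁.exists_primitive hh
    refine ⟨G, hG, ?_⟩
    rw [Function.iterate_succ_apply, h2, h1]

theorem isCuspPer_iterate_D {h : ℝ} (hh : 0 < h) (m : ℕ) {G : ℍ → ℂ} (hG : IsCuspPer h G) :
    IsCuspPer h (D^[m] G) := by
  induction m with
  | zero => exact hG
  | succ m ih =>
    rw [Function.iterate_succ_apply']
    exact isCuspPer_D hh ih.mdiff ih.periodic ih.bounded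

theorem qCoeff_iterate_D (m : ℕ) {G : ℍ → ℂ} (hG : IsCuspPer 1 G) (j : ℕ) :
    ModularFormClass.qCoeff (D^[m] G) j = (j : ℂ) ^ m * ModularFormClass.qCoeff G j := by
  induction m with
  | zero => simp
  | succ m ih =>
    have hm := isCuspPer_iterate_D one_pos m hG
    rw [Function.iterate_succ_apply', qCoeff_D hm.mdiff hm.periodic hm.bounded, ih]
    ring

theorem eichler_qCoeff_zero_of_isCuspPer {F : ℍ → ℂ} (hF : IsCuspPer 1 F) :
    ModularFormClass.qCoeff F 0 = 0 := by
  rw [ModularFormClass.qCoeff, qExpansion_coeff]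
  simp [hF.zero.cuspFunction_apply_zero one_pos]

theorem eq_of_iterate_D_eq (m : ℕ) {F F' : ℍ → ℂ} (hF : IsCuspPer 1 F) (hF' : IsCuspPer 1 F')
    (h : D^[m] F = D^[m] F') : F = F' := by
  apply UpperHalfPlane.eq_of_forall_qCoeff_eq hF.periodic hF.mdiff hF.bounded
    hF'.periodic hF'.mdiff hF'.bounded
  intro j
  rcases Nat.eq_zero_or_pos j with rfl | hj
  · rw [eichler_qCoeff_zero_of_isCuspPer hF, eichler_qCoeff_zero_of_isCuspPer hF']
  · have h1 := qCoeff_iterate_D m hF j
    have h2 := qCoeff_iterate_D m hF' j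
    rw [h] at h1
    have hj' : (j : ℂ) ^ m ≠ 0 := pow_ne_zero _ (Nat.cast_ne_zero.mpr hj.ne')
    exact mul_left_cancel₀ hj' (h1.symm.trans h2)

/-- The Eichler integral: the `(n+1)`-fold `D`-primitive that is `1`-periodic and zero at `i∞`. -/
noncomputable def eichler (n : ℕ) (f : ℍ → ℂ) : ℍ → ℂ :=
  open Classical in
  if hf : IsCuspPer 1 f then
    Classical.choose (IsCuspPer.exists_iterate_primitive one_pos (n + 1) hf)
  else 0

theorem eichler_isCuspPer (n : ℕ) {f : ℍ → ℂ} (hf : IsCuspPer 1 f) :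
    IsCuspPer 1 (eichler n f) := by
  rw [eichler, dif_pos hf]
  exact (Classical.choose_spec (IsCuspPer.exists_iterate_primitive one_pos (n + 1) hf)).1

theorem iterate_D_eichler (n : ℕ) {f : ℍ → ℂ} (hf : IsCuspPer 1 f) :
    D^[n + 1] (eichler n f) = f := by
  rw [eichler, dif_pos hf]
  exact (Classical.choose_spec (IsCuspPer.exists_iterate_primitive one_pos (n + 1) hf)).2

theorem eichler_eq_of (n : ℕ) {f F : ℍ → ℂ} (hF : IsCuspPer 1 F) (h : D^[n + 1] F = f) :
    eichler n f = F := by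
  have hf : IsCuspPer 1 f := h ▸ isCuspPer_iterate_D one_pos (n + 1) hF
  exact eq_of_iterate_D_eq (n + 1) (eichler_isCuspPer n hf) hF
    ((iterate_D_eichler n hf).trans h.symm)

theorem eichler_add (n : ℕ) {f g : ℍ → ℂ} (hf : IsCuspPer 1 f) (hg : IsCuspPer 1 g) :
    eichler n (f + g) = eichler n f + eichler n g := by
  apply eichler_eq_of n ((eichler_isCuspPer n hf).add (eichler_isCuspPer n hg))
  rw [iterate_D_add _ (eichler_isCuspPer n hf).mdiff (eichler_isCuspPer n hg).mdiff,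
    iterate_D_eichler n hf, iterate_D_eichler n hg]

theorem eichler_smul (n : ℕ) (c : ℂ) {f : ℍ → ℂ} (hf : IsCuspPer 1 f) :
    eichler n (c • f) = c • eichler n f := by
  apply eichler_eq_of n ((eichler_isCuspPer n hf).smul c)
  rw [iterate_D_smul _ c (eichler_isCuspPer n hf).mdiff, iterate_D_eichler n hf]

theorem qCoeff_eichler (n : ℕ) {f : ℍ → ℂ} (hf : IsCuspPer 1 f) (j : ℕ) :
    (j : ℂ) ^ (n + 1) * ModularFormClass.qCoeff (eichler n f) j = ModularFormClass.qCoeff f j := by
  have h := qCoeff_iterate_D (n + 1) (eichler_isCuspPer n hf) j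
  rw [iterate_D_eichler n hf] at h
  exact h.symm

end Fermat.Agent.S22
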