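import Mathlib
import Fermat.Prelude.Def_CuspForm_HeckeAlgebra
import Fermat.Prelude.Thm_UpperHalfPlane_qCoeff_heckeT
import Fermat.Prelude.Thm_UpperHalfPlane_qCoeff_heckeU
import Fermat.Prelude.Thm_UpperHalfPlane_eq_of_forall_qCoeff_eq
import Fermat.Prelude.Thm_ModularForm_mdifferentiable_heckeT
import Fermat.Prelude.Thm_ModularForm_mdifferentiable_heckeU
import Fermat.Prelude.Thm_ModularForm_periodic_heckeT_comp_ofComplex
import Fermat.Prelude.Thm_ModularForm_periodic_heckeU_comp_ofComplex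
import Fermat.Prelude.Thm_ModularForm_isBoundedAtImInfty_heckeT
import Fermat.Prelude.Thm_ModularForm_isBoundedAtImInfty_heckeU
import Fermat.Agent.S22.Defs
import Fermat.Agent.S22.Eichler

set_option autoImplicit false

namespace Fermat.Agent.S22

open UpperHalfPlane Derivative
open scoped MatrixGroups ModularForm Manifold

/-- The constant `q`-coefficient of a cuspidal periodic function vanishes. -/
theorem eichlerHecke_qCoeff_zero {F : ℍ → ℂ} (hF : IsCuspPer 1 F) :
    ModularFormClass.qCoeff F 0 = 0 := by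
  unfold ModularFormClass.qCoeff
  rw [UpperHalfPlane.qExpansion_coeff_zero one_pos
    (UpperHalfPlane.analyticAt_cuspFunction_zero one_pos hF.periodic hF.mdiff hF.bounded)
    hF.periodic, hF.zero.valueAtInfty_eq_zero]

/-- `q`-coefficients of a scalar multiple. -/
theorem eichlerHecke_qCoeff_smul {G : ℍ → ℂ} (hG : MDiff G)
    (hper : Function.Periodic (G ∘ ofComplex) 1) (hbdd : IsBoundedAtImInfty G) (c : ℂ) (m : ℕ) :
    ModularFormClass.qCoeff (c • G) m = c * ModularFormClass.qCoeff G m := by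
  unfold ModularFormClass.qCoeff
  rw [UpperHalfPlane.qExpansion_smul
    (UpperHalfPlane.analyticAt_cuspFunction_zero one_pos hper hG hbdd)]
  simp

theorem eichlerHecke_periodic_smul {G : ℍ → ℂ} (hper : Function.Periodic (G ∘ ofComplex) 1)
    (c : ℂ) : Function.Periodic ((c • G) ∘ ofComplex) 1 := fun z => by
  have h1 := hper z
  simp only [Function.comp_apply, Pi.smul_apply] at h1 ⊢
  rw [h1]

theorem eichler_heckeT (n : ℕ) {p : ℕ} (hp : p ≠ 0) {f : ℍ → ℂ} (hf : IsCuspPer 1 f)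
    (hTf : IsCuspPer 1 (ModularForm.heckeT ((n : ℤ) + 2) p f)) :
    eichler n (ModularForm.heckeT ((n : ℤ) + 2) p f) =
      (p : ℂ) ^ (n + 1) • ModularForm.heckeT (-(n : ℤ)) p (eichler n f) := by
  have hF : IsCuspPer 1 (eichler n f) := eichler_isCuspPer n hf
  have hE : IsCuspPer 1 (eichler n (ModularForm.heckeT ((n : ℤ) + 2) p f)) :=
    eichler_isCuspPer n hTf
  have hTF_mdiff : MDiff (ModularForm.heckeT (-(n : ℤ)) p (eichler n f)) :=
    ModularForm.mdifferentiable_heckeT hF.mdiff _ _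
  have hTF_per := ModularForm.periodic_heckeT_comp_ofComplex hF.periodic (-(n : ℤ)) p
  have hTF_bdd := ModularForm.isBoundedAtImInfty_heckeT hF.bounded (-(n : ℤ)) p
  have hpC : (p : ℂ) ≠ 0 := Nat.cast_ne_zero.mpr hp
  refine UpperHalfPlane.eq_of_forall_qCoeff_eq hE.periodic hE.mdiff hE.bounded
    (eichlerHecke_periodic_smul hTF_per _) (hTF_mdiff.const_smul _) (hTF_bdd.smul _) ?_
  intro m
  rw [eichlerHecke_qCoeff_smul hTF_mdiff hTF_per hTF_bdd,
    UpperHalfPlane.qCoeff_heckeT hF.periodic hF.mdiff hF.bounded _ hp]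
  rcases Nat.eq_zero_or_pos m with rfl | hm
  · rw [eichlerHecke_qCoeff_zero hE]
    simp [ModularForm.coeffHeckeT, eichlerHecke_qCoeff_zero hF]
  · have hmC : (m : ℂ) ≠ 0 := Nat.cast_ne_zero.mpr hm.ne'
    have hm' : (m : ℂ) ^ (n + 1) ≠ 0 := pow_ne_zero _ hmC
    apply mul_left_cancel₀ hm'
    rw [qCoeff_eichler n hTf m, UpperHalfPlane.qCoeff_heckeT hf.periodic hf.mdiff hf.bounded _ hp]
    simp only [ModularForm.coeffHeckeT]
    rw [← qCoeff_eichler n hf (m * p)]
    split_ifs with hdvd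
    · rw [← qCoeff_eichler n hf (m / p)]
      obtain ⟨c, rfl⟩ := hdvd
      have hc : (c : ℂ) ≠ 0 := by
        rintro h0
        apply hmC
        push_cast
        rw [h0, mul_zero]
      rw [Nat.mul_div_cancel_left c (Nat.pos_of_ne_zero hp)]
      have e1 : (p : ℂ) ^ ((n : ℤ) + 2 - 1) = (p : ℂ) ^ (n + 1) := by
        rw [show (n : ℤ) + 2 - 1 = ((n + 1 : ℕ) : ℤ) by push_cast; ring, zpow_natCast]
      have e2 : (p : ℂ) ^ (-(n : ℤ) - 1) = ((p : ℂ) ^ (n + 1))⁻¹ := by
        rw [show -(n : ℤ) - 1 = -((n + 1 : ℕ) : ℤ) by push_cast; ring, zpow_neg, zpow_natCast]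
      rw [e1, e2]
      push_cast
      field_simp
      ring
    · push_cast
      ring

theorem eichler_heckeU (n : ℕ) {p : ℕ} (hp : p ≠ 0) {f : ℍ → ℂ} (hf : IsCuspPer 1 f)
    (hUf : IsCuspPer 1 (ModularForm.heckeU ((n : ℤ) + 2) p f)) :
    eichler n (ModularForm.heckeU ((n : ℤ) + 2) p f) =
      (p : ℂ) ^ (n + 1) • ModularForm.heckeU (-(n : ℤ)) p (eichler n f) := by
  have hF : IsCuspPer 1 (eichler n f) := eichler_isCuspPer n hf
  have hE : IsCuspPer 1 (eichler n (ModularForm.heckeU ((n : ℤ) + 2) p f)) :=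
    eichler_isCuspPer n hUf
  have hUF_mdiff : MDiff (ModularForm.heckeU (-(n : ℤ)) p (eichler n f)) :=
    ModularForm.mdifferentiable_heckeU hF.mdiff _ _
  have hUF_per := ModularForm.periodic_heckeU_comp_ofComplex hF.periodic (-(n : ℤ)) p
  have hUF_bdd := ModularForm.isBoundedAtImInfty_heckeU hF.bounded (-(n : ℤ)) p
  have hpC : (p : ℂ) ≠ 0 := Nat.cast_ne_zero.mpr hp
  refine UpperHalfPlane.eq_of_forall_qCoeff_eq hE.periodic hE.mdiff hE.bounded
    (eichlerHecke_periodic_smul hUF_per _) (hUF_mdiff.const_smul _) (hUF_bdd.smul _) ?_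
  intro m
  rw [eichlerHecke_qCoeff_smul hUF_mdiff hUF_per hUF_bdd,
    UpperHalfPlane.qCoeff_heckeU hF.periodic hF.mdiff hF.bounded _ hp]
  rcases Nat.eq_zero_or_pos m with rfl | hm
  · rw [eichlerHecke_qCoeff_zero hE]
    simp [ModularForm.coeffHeckeU, eichlerHecke_qCoeff_zero hF]
  · have hmC : (m : ℂ) ≠ 0 := Nat.cast_ne_zero.mpr hm.ne'
    have hm' : (m : ℂ) ^ (n + 1) ≠ 0 := pow_ne_zero _ hmC
    apply mul_left_cancel₀ hm'
    rw [qCoeff_eichler n hUf m, UpperHalfPlane.qCoeff_heckeU hf.periodic hf.mdiff hf.bounded _ hp]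
    simp only [ModularForm.coeffHeckeU]
    rw [← qCoeff_eichler n hf (m * p)]
    push_cast
    ring

end Fermat.Agent.S22
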