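import Mathlib
import Fermat.Agent.S22.Defs

set_option autoImplicit false

namespace Fermat.Agent.S22

open scoped MatrixGroups

theorem gamma0FG_group_fg_SL2Z : Group.FG SL(2, ℤ) := by
  rw [Group.fg_iff]
  refine ⟨{ModularGroup.S, ModularGroup.T}, ?_, Set.toFinite _⟩
  exact SpecialLinearGroup.SL2Z_generators

theorem exists_finset_closure_eq_Gamma0 (N : ℕ) [NeZero N] :
    ∃ S : Finset SL(2, ℤ), Subgroup.closure (S : Set SL(2, ℤ)) = CongruenceSubgroup.Gamma0 N := by
  have h1 : Group.FG SL(2, ℤ) := gamma0FG_group_fg_SL2Z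
  have h2 : Group.FG (CongruenceSubgroup.Gamma0 N) := Subgroup.fg_of_index_ne_zero _
  exact (Group.fg_iff_subgroup_fg _).mp h2

end Fermat.Agent.S22
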