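import Mathlib
import Fermat.Prelude.Def_CuspForm_HeckeAlgebra

set_option autoImplicit false

open UpperHalfPlane ModularForm
open scoped MatrixGroups ModularForm

namespace Fermat.Agent.S22

theorem h61_finite_adjoin_of_lattice {V : Type*} [AddCommGroup V] [Module ℂ V]
    (G : Set (Module.End ℂ V)) (Lam : Submodule ℤ (Module.Dual ℂ V)) (hfg : Lam.FG)
    (hstab : ∀ g ∈ G, ∀ φ ∈ Lam, φ ∘ₗ g ∈ Lam)
    (hsep : ∀ v : V, (∀ φ ∈ Lam, φ v = 0) → v = 0) :
    Module.Finite ℤ (Algebra.adjoin ℤ G) := by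
  classical
  -- stability under the whole adjoin
  have hstab' : ∀ t ∈ Algebra.adjoin ℤ G, ∀ φ ∈ Lam, φ ∘ₗ t ∈ Lam := by
    intro t ht
    induction ht using Algebra.adjoin_induction with
    | mem x hx => exact hstab x hx
    | algebraMap r =>
      intro φ hφ
      have : φ ∘ₗ (algebraMap ℤ (Module.End ℂ V) r) = r • φ := by
        ext v
        simp
      rw [this]
      exact Lam.smul_mem r hφ
    | add x y _ _ hx hy =>
      intro φ hφ
      rw [LinearMap.comp_add]
      exact Lam.add_mem (hx φ hφ) (hy φ hφ)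
    | mul x y _ _ hx hy =>
      intro φ hφ
      have : φ ∘ₗ (x * y) = (φ ∘ₗ x) ∘ₗ y := rfl
      rw [this]
      exact hy _ (hx φ hφ)
  have hfin : Module.Finite ℤ Lam := Module.Finite.iff_fg.mpr hfg
  have hfree : Module.Free ℤ Lam := Module.free_of_finite_type_torsion_free'
  have hfinEnd : Module.Finite ℤ (Lam →ₗ[ℤ] Lam) := Module.Finite.linearMap ℤ ℤ Lam Lam
  let Ψ : Algebra.adjoin ℤ G →ₗ[ℤ] (Lam →ₗ[ℤ] Lam) :=
    { toFun := fun t =>
        { toFun := fun φ => ⟨(φ : Module.Dual ℂ V) ∘ₗ (t : Module.End ℂ V), hstab' t t.2 φ φ.2⟩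
          map_add' := fun φ ψ => by
            apply Subtype.ext
            simp [LinearMap.add_comp]
          map_smul' := fun r φ => by
            apply Subtype.ext
            simp [LinearMap.smul_comp] }
      map_add' := fun s t => by
        apply LinearMap.ext
        intro φ
        apply Subtype.ext
        simp [LinearMap.comp_add]
      map_smul' := fun r t => by
        apply LinearMap.ext
        intro φ
        apply Subtype.ext
        ext v
        simp }
  have hinj : Function.Injective Ψ := by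
    rw [← LinearMap.ker_eq_bot, LinearMap.ker_eq_bot']
    intro t ht
    apply Subtype.ext
    apply LinearMap.ext
    intro v
    apply hsep
    intro φ hφ
    have h1 := congrArg (fun L : Lam →ₗ[ℤ] Lam => ((L ⟨φ, hφ⟩ : Lam) : Module.Dual ℂ V) v) ht
    simpa [Ψ] using h1
  exact Module.Finite.of_injective Ψ hinj


theorem h61_neg_one_mem_Gamma0 (N : ℕ) :
    (-1 : GL (Fin 2) ℝ) ∈ (CongruenceSubgroup.Gamma0 N : Subgroup (GL (Fin 2) ℝ)) := by
  refine ⟨-1, ?_, ?_⟩
  · rw [SetLike.mem_coe, CongruenceSubgroup.Gamma0_mem]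
    simp
  · ext i j
    fin_cases i <;> fin_cases j <;> simp [Matrix.SpecialLinearGroup.mapGL]

theorem h61_cuspForm_eq_zero_of_lt_two (N : ℕ) [NeZero N] (k : ℤ) (hk : k < 2)
    (f : CuspForm (CongruenceSubgroup.Gamma0 N) k) : f = 0 := by
  have hinj := CuspForm.toModularFormₗ_injective (Γ := (CongruenceSubgroup.Gamma0 N : Subgroup (GL (Fin 2) ℝ))) (k := k)
  apply hinj
  rw [map_zero]
  rcases lt_trichotomy k 0 with hneg | h0 | hpos
  · exact ModularForm.isZero_of_neg_weight hneg _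
  · subst h0
    obtain ⟨c, hc⟩ := ModularForm.eq_const_of_weight_zero (CuspForm.toModularFormₗ f)
    have hz : IsZeroAtImInfty (f : ℍ → ℂ) := CuspFormClass.zero_at_infty f
    have hfc : (f : ℍ → ℂ) = Function.const ℍ c := hc
    have hc0 : c = 0 := by
      have h1 : Filter.Tendsto (f : ℍ → ℂ) atImInfty (nhds c) := by
        rw [hfc]; exact tendsto_const_nhds
      exact tendsto_nhds_unique h1 hz
    ext z
    have := congrFun hc z
    simpa [hc0] using this
  · have h1 : k = 1 := by omega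
    subst h1
    exact ModularForm.eq_zero_of_neg_one_mem (h61_neg_one_mem_Gamma0 N) (by decide) _


theorem h61_finite_of_empty (N : ℕ) [NeZero N] (k : ℤ) (S : Set ℕ)
    (h : Module.Finite ℤ (CuspForm.heckeAlgebra N k ∅)) :
    Module.Finite ℤ (CuspForm.heckeAlgebra N k S) := by
  have hle : CuspForm.heckeAlgebra N k S ≤ CuspForm.heckeAlgebra N k ∅ :=
    CuspForm.heckeAlgebra_mono (Set.empty_subset S)
  exact Module.Finite.of_injective (Subalgebra.inclusion hle).toLinearMap
    (Subalgebra.inclusion_injective hle)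

theorem h61_result_of_two_le
    (h : ∀ (N : ℕ) [NeZero N] (k : ℤ), 2 ≤ k → Module.Finite ℤ (CuspForm.heckeAlgebra N k ∅)) :
    ∀ (N : ℕ) [NeZero N] (k : ℤ) (S : Set ℕ), Module.Finite ℤ (CuspForm.heckeAlgebra N k S) := by
  intro N _ k S
  by_cases hk : 2 ≤ k
  · exact h61_finite_of_empty N k S (h N k hk)
  · have hsub : Subsingleton (CuspForm (CongruenceSubgroup.Gamma0 N) k) :=
      ⟨fun f g => by
        rw [h61_cuspForm_eq_zero_of_lt_two N k (by omega) f,
          h61_cuspForm_eq_zero_of_lt_two N k (by omega) g]⟩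
    have hsub2 : Subsingleton (Module.End ℂ (CuspForm (CongruenceSubgroup.Gamma0 N) k)) :=
      ⟨fun a b => LinearMap.ext fun x => Subsingleton.elim _ _⟩
    have hsub3 : Subsingleton (CuspForm.heckeAlgebra N k S) :=
      ⟨fun a b => Subtype.ext (Subsingleton.elim _ _)⟩
    have : Finite (CuspForm.heckeAlgebra N k S) := Finite.of_subsingleton
    exact Module.Finite.of_finite


theorem h61_SL2Z_fg : Group.FG SL(2, ℤ) := by
  rw [Group.fg_iff]
  exact ⟨{ModularGroup.S, ModularGroup.T}, SpecialLinearGroup.SL2Z_generators, Set.toFinite _⟩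

theorem h61_Gamma0_fg (N : ℕ) [NeZero N] : Group.FG (CongruenceSubgroup.Gamma0 N) := by
  have := h61_SL2Z_fg
  exact Subgroup.fg_of_index_ne_zero _

/-- A finite set of generators of `Gamma0 N`, as a subgroup of `SL(2, ℤ)`. -/
theorem h61_Gamma0_exists_finset (N : ℕ) [NeZero N] :
    ∃ s : Finset SL(2, ℤ), Subgroup.closure (s : Set SL(2, ℤ)) = CongruenceSubgroup.Gamma0 N :=
  (Group.fg_iff_subgroup_fg _).mp (h61_Gamma0_fg N)


/-- Top-level reduction: it suffices to produce, for every level and every weight `k ≥ 2`,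
a finitely generated `ℤ`-lattice of functionals that is stable under the transposes of the
Hecke operators and separates points. -/
theorem h61_result_of_lattice
    (h : ∀ (N : ℕ) [NeZero N] (k : ℤ), 2 ≤ k →
      ∃ Lam : Submodule ℤ (Module.Dual ℂ (CuspForm (CongruenceSubgroup.Gamma0 N) k)),
        Lam.FG ∧
        (∀ (ℓ : ℕ) (hℓ : ℓ.Prime) (hℓN : ¬ ℓ ∣ N), ∀ φ ∈ Lam,
          φ ∘ₗ CuspForm.heckeTLin k hℓ hℓN ∈ Lam) ∧
        (∀ (q : ℕ) (hqN : q ∣ N), q.Prime → ∀ φ ∈ Lam,
          φ ∘ₗ CuspForm.heckeULin k hqN ∈ Lam) ∧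
        (∀ f : CuspForm (CongruenceSubgroup.Gamma0 N) k, (∀ φ ∈ Lam, φ f = 0) → f = 0)) :
    ∀ (N : ℕ) [NeZero N] (k : ℤ) (S : Set ℕ), Module.Finite ℤ (CuspForm.heckeAlgebra N k S) := by
  apply h61_result_of_two_le
  intro N _ k hk
  obtain ⟨Lam, hfg, hT, hU, hsep⟩ := h N k hk
  refine h61_finite_adjoin_of_lattice (CuspForm.heckeGenerators N k ∅) Lam hfg ?_ hsep
  rintro g (⟨ℓ, hℓ, hℓN, -, rfl⟩ | ⟨q, hqN, hq, -, rfl⟩) φ hφ
  · exact hT ℓ hℓ hℓN φ hφ
  · exact hU q hqN hq φ hφ

end Fermat.Agent.S22
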