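import Mathlib

set_option autoImplicit false
set_option linter.style.haveILetI false

namespace Fermat.Agent.S22

/-- Stability of the lattice under the adjoined algebra. -/
theorem Abstract_comp_mem_of_mem_adjoin {V : Type*} [AddCommGroup V] [Module ℂ V]
    (𝒯 : Set (Module.End ℂ V)) (𝕄 : Submodule ℤ (Module.Dual ℂ V))
    (hstab : ∀ T ∈ 𝒯, ∀ Λ ∈ 𝕄, Λ ∘ₗ T ∈ 𝕄) {A : Module.End ℂ V}
    (hA : A ∈ Algebra.adjoin ℤ 𝒯) : ∀ Λ ∈ 𝕄, Λ ∘ₗ A ∈ 𝕄 := by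
  induction hA using Algebra.adjoin_induction with
  | mem T hT => exact hstab T hT
  | algebraMap n =>
    intro Λ hΛ
    have h : Λ ∘ₗ (algebraMap ℤ (Module.End ℂ V) n) = n • Λ := by
      ext v
      simp
    rw [h]
    exact 𝕄.smul_mem n hΛ
  | add A B _ _ ihA ihB =>
    intro Λ hΛ
    rw [LinearMap.comp_add]
    exact 𝕄.add_mem (ihA Λ hΛ) (ihB Λ hΛ)
  | mul A B _ _ ihA ihB =>
    intro Λ hΛ
    have h : Λ ∘ₗ (A * B) = (Λ ∘ₗ A) ∘ₗ B := rfl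
    rw [h]
    exact ihB _ (ihA Λ hΛ)

theorem finite_adjoin_of_dual_lattice {V : Type*} [AddCommGroup V] [Module ℂ V]
    (𝒯 : Set (Module.End ℂ V)) (𝕄 : Submodule ℤ (Module.Dual ℂ V)) (hfg : 𝕄.FG)
    (hsep : ∀ v : V, (∀ Λ ∈ 𝕄, Λ v = 0) → v = 0)
    (hstab : ∀ T ∈ 𝒯, ∀ Λ ∈ 𝕄, Λ ∘ₗ T ∈ 𝕄) :
    Module.Finite ℤ (Algebra.adjoin ℤ 𝒯) := by
  haveI : Module.Finite ℤ 𝕄 := Module.Finite.iff_fg.mpr hfg
  haveI : Module.Free ℤ 𝕄 := Module.free_of_finite_type_torsion_free'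
  haveI : Module.Finite ℤ (𝕄 →ₗ[ℤ] 𝕄) := Module.Finite.linearMap ℤ ℤ 𝕄 𝕄
  let Φ : (Algebra.adjoin ℤ 𝒯) →ₗ[ℤ] (𝕄 →ₗ[ℤ] 𝕄) :=
    { toFun := fun A =>
        { toFun := fun Λ => ⟨Λ.1 ∘ₗ A.1, Abstract_comp_mem_of_mem_adjoin 𝒯 𝕄 hstab A.2 Λ.1 Λ.2⟩
          map_add' := fun Λ Λ' => by
            ext v
            simp
          map_smul' := fun n Λ => by
            ext v
            simp }
      map_add' := fun A B => by
        ext Λ v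
        simp
      map_smul' := fun n A => by
        ext Λ v
        simp }
  have hΦ : Function.Injective Φ := by
    rw [← LinearMap.ker_eq_bot, LinearMap.ker_eq_bot']
    intro A hA
    ext v
    apply hsep
    intro Λ hΛ
    have h1 := congrArg (fun f : 𝕄 →ₗ[ℤ] 𝕄 => (f ⟨Λ, hΛ⟩ : Module.Dual ℂ V) v) hA
    simpa [Φ] using h1
  exact Module.Finite.of_injective Φ hΦ

end Fermat.Agent.S22
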