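import Mathlib
import Fermat.Prelude.Def_CuspForm_HeckeAlgebra
import Fermat.Agent.S22.Defs

set_option autoImplicit false

namespace Fermat.Agent.S22

open UpperHalfPlane
open scoped MatrixGroups ModularForm Manifold

/-- The polynomial with prescribed coefficients. -/
noncomputable def polyActPoly (n : ℕ) (c : Fin (n + 1) → ℂ) : Polynomial ℂ :=
  ∑ i : Fin (n + 1), Polynomial.C (c i) * Polynomial.X ^ (i : ℕ)

theorem polyAct_eval (n : ℕ) (c : Fin (n + 1) → ℂ) (z : ℂ) :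
    (polyActPoly n c).eval z = ∑ i : Fin (n + 1), c i * z ^ (i : ℕ) := by
  simp [polyActPoly, Polynomial.eval_finsetSum]

theorem polyAct_coeff (n : ℕ) (c : Fin (n + 1) → ℂ) (j : Fin (n + 1)) :
    (polyActPoly n c).coeff (j : ℕ) = c j := by
  unfold polyActPoly
  rw [Polynomial.finsetSum_coeff]
  rw [Finset.sum_eq_single j]
  · simp
  · intro i _ hij
    rw [Polynomial.coeff_C_mul_X_pow]
    rw [if_neg]
    intro h
    exact hij (Fin.ext h.symm)
  · intro h
    exact absurd (Finset.mem_univ j) h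

theorem polyAct_infinite_upper : Set.Infinite {z : ℂ | 0 < z.im} := by
  have hinj : Function.Injective (fun m : ℕ => (⟨0, (m : ℝ) + 1⟩ : ℂ)) := by
    intro m m' h
    have h2 := congrArg Complex.im h
    simp only at h2
    have h3 : (m : ℝ) = m' := by linarith
    exact_mod_cast h3
  refine Set.infinite_of_injective_forall_mem hinj ?_
  intro m
  show 0 < (m : ℝ) + 1
  positivity

theorem polyFun_injective (n : ℕ) : Function.Injective (polyFun n) := by
  intro c c' h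
  have hP : polyActPoly n c - polyActPoly n c' = 0 := by
    apply Polynomial.eq_zero_of_infinite_isRoot
    apply Set.Infinite.mono _ polyAct_infinite_upper
    intro z hz
    have h1 := congrFun h ⟨z, hz⟩
    simp only [polyFun] at h1
    show Polynomial.IsRoot _ z
    rw [Polynomial.IsRoot, Polynomial.eval_sub, polyAct_eval, polyAct_eval]
    exact sub_eq_zero.mpr h1
  funext j
  have h2 := congrArg (fun P => Polynomial.coeff P (j : ℕ)) hP
  simp only [Polynomial.coeff_sub, polyAct_coeff, Polynomial.coeff_zero] at h2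
  exact sub_eq_zero.mp h2

/-- Integer polynomial whose coefficients form a column of the matrix of the slash action. -/
noncomputable def polyActCol (n : ℕ) (a b c d : ℤ) (i : ℕ) : Polynomial ℤ :=
  (Polynomial.C a * Polynomial.X + Polynomial.C b) ^ i *
    (Polynomial.C c * Polynomial.X + Polynomial.C d) ^ (n - i)

theorem polyActCol_natDegree_le (n : ℕ) (a b c d : ℤ) (i : ℕ) (hi : i ≤ n) :
    (polyActCol n a b c d i).natDegree ≤ n := by
  unfold polyActCol
  have h1 : (Polynomial.C a * Polynomial.X + Polynomial.C b : Polynomial ℤ).natDegree ≤ 1 :=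
    Polynomial.natDegree_linear_le
  have h2 : (Polynomial.C c * Polynomial.X + Polynomial.C d : Polynomial ℤ).natDegree ≤ 1 :=
    Polynomial.natDegree_linear_le
  have h3 : ((Polynomial.C a * Polynomial.X + Polynomial.C b : Polynomial ℤ) ^ i).natDegree ≤ i :=
    (Polynomial.natDegree_pow_le).trans (by nlinarith)
  have h4 : ((Polynomial.C c * Polynomial.X + Polynomial.C d : Polynomial ℤ) ^ (n - i)).natDegree
      ≤ n - i :=
    (Polynomial.natDegree_pow_le).trans (by nlinarith)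
  refine (Polynomial.natDegree_mul_le).trans ?_
  omega

theorem polyActCol_sum (n : ℕ) (a b c d : ℤ) (i : ℕ) (hi : i ≤ n) (z : ℂ) :
    ∑ j : Fin (n + 1), ((polyActCol n a b c d i).coeff (j : ℕ) : ℂ) * z ^ (j : ℕ) =
      ((a : ℂ) * z + b) ^ i * ((c : ℂ) * z + d) ^ (n - i) := by
  have hdeg : (polyActCol n a b c d i).natDegree < n + 1 :=
    Nat.lt_succ_of_le (polyActCol_natDegree_le n a b c d i hi)
  have h1 := Polynomial.eval₂_eq_sum_range' (Int.castRingHom ℂ) hdeg z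
  rw [Fin.sum_univ_eq_sum_range (fun j => ((polyActCol n a b c d i).coeff j : ℂ) * z ^ j) (n + 1)]
  simp only [eq_intCast] at h1
  rw [← h1]
  simp only [polyActCol, Polynomial.eval₂_mul, Polynomial.eval₂_pow, Polynomial.eval₂_add,
    Polynomial.eval₂_C, Polynomial.eval₂_X]
  simp only [eq_intCast]

theorem exists_intMatrix_slash (n : ℕ) (g : GL (Fin 2) ℝ) (a b c d : ℤ)
    (hg : (g : Matrix (Fin 2) (Fin 2) ℝ) = !![(a : ℝ), b; c, d]) (hdet : 0 < a * d - b * c) :
    ∃ R : Matrix (Fin (n + 1)) (Fin (n + 1)) ℤ, ∀ v : Fin (n + 1) → ℂ,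
      ((a * d - b * c : ℤ) : ℂ) ^ (n + 1) • (polyFun n v ∣[-(n : ℤ)] g) =
        polyFun n ((R.map (Int.cast : ℤ → ℂ)).mulVec v) := by
  refine ⟨Matrix.of fun j i => (polyActCol n a b c d (i : ℕ)).coeff (j : ℕ), fun v => ?_⟩
  funext τ
  have hdetR : (g.det : ℝ) = ((a * d - b * c : ℤ) : ℝ) := by
    rw [Matrix.GeneralLinearGroup.val_det_apply, hg, Matrix.det_fin_two_of]
    push_cast
    ring
  have hposR : (0 : ℝ) < ((a * d - b * c : ℤ) : ℝ) := by exact_mod_cast hdet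
  have hpos : 0 < (g.det : ℝ) := by rw [hdetR]; exact hposR
  have hσ : UpperHalfPlane.σ g = .refl ℝ ℂ := by rw [UpperHalfPlane.σ, if_pos hpos]
  have hden : UpperHalfPlane.denom g τ = (c : ℂ) * τ + d := by
    simp [UpperHalfPlane.denom, hg]
  have hnum : UpperHalfPlane.num g τ = (a : ℂ) * τ + b := by
    simp [UpperHalfPlane.num, hg]
  have hsmul : ((g • τ : ℍ) : ℂ) = ((a : ℂ) * τ + b) / ((c : ℂ) * τ + d) := by
    rw [UpperHalfPlane.coe_smul_of_det_pos hpos, hnum, hden]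
  have hne : (c : ℂ) * τ + d ≠ 0 := by
    rw [← hden]
    exact UpperHalfPlane.denom_ne_zero g τ
  have hD : (((a * d - b * c : ℤ) : ℝ) : ℂ) ≠ 0 := by
    exact_mod_cast hposR.ne'
  -- right-hand side
  have hR : polyFun n (((Matrix.of fun j i => (polyActCol n a b c d (i : ℕ)).coeff (j : ℕ) :
      Matrix (Fin (n + 1)) (Fin (n + 1)) ℤ).map (Int.cast : ℤ → ℂ)).mulVec v) τ =
      ∑ i : Fin (n + 1), v i * (((a : ℂ) * τ + b) ^ (i : ℕ) * ((c : ℂ) * τ + d) ^ (n - (i : ℕ))) := by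
    simp only [polyFun, Matrix.mulVec, dotProduct, Matrix.map_apply, Matrix.of_apply]
    simp only [Finset.sum_mul]
    rw [Finset.sum_comm]
    refine Finset.sum_congr rfl fun i _ => ?_
    rw [← polyActCol_sum n a b c d (i : ℕ) (Nat.lt_succ_iff.mp i.2) (τ : ℂ), Finset.mul_sum]
    refine Finset.sum_congr rfl fun j _ => ?_
    ring
  rw [hR, Pi.smul_apply, ModularForm.slash_apply, hσ, hdetR, hden]
  simp only [ContinuousAlgEquiv.refl_apply, polyFun, hsmul, abs_of_pos hposR, neg_neg, smul_eq_mul]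
  rw [zpow_natCast, Finset.sum_mul, Finset.sum_mul, Finset.mul_sum]
  refine Finset.sum_congr rfl fun i _ => ?_
  have hi : (i : ℕ) ≤ n := Nat.lt_succ_iff.mp i.2
  have hpow : ((c : ℂ) * τ + d) ^ n = ((c : ℂ) * τ + d) ^ (i : ℕ) * ((c : ℂ) * τ + d) ^ (n - (i : ℕ)) := by
    rw [← pow_add]
    congr 1
    omega
  have hz : ((((a * d - b * c : ℤ) : ℝ) : ℂ)) ^ (n + 1) *
      ((((a * d - b * c : ℤ) : ℝ) : ℂ)) ^ (-(n : ℤ) - 1) = 1 := by
    rw [← zpow_natCast, ← zpow_add₀ hD]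
    have : ((n + 1 : ℕ) : ℤ) + (-(n : ℤ) - 1) = 0 := by push_cast; ring
    rw [this, zpow_zero]
  have hcast : (((a * d - b * c : ℤ) : ℂ)) = ((((a * d - b * c : ℤ) : ℝ) : ℂ)) := by
    push_cast
    ring
  have hdeni : ((c : ℂ) * τ + d) ^ (i : ℕ) ≠ 0 := pow_ne_zero _ hne
  rw [hcast, div_pow, hpow]
  have e1 : ((((a * d - b * c : ℤ) : ℝ) : ℂ)) ^ (n + 1) *
      (v i * (((a : ℂ) * τ + b) ^ (i : ℕ) / ((c : ℂ) * τ + d) ^ (i : ℕ)) *
        ((((a * d - b * c : ℤ) : ℝ) : ℂ)) ^ (-(n : ℤ) - 1) *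
        (((c : ℂ) * τ + d) ^ (i : ℕ) * ((c : ℂ) * τ + d) ^ (n - (i : ℕ)))) =
      (((((a * d - b * c : ℤ) : ℝ) : ℂ)) ^ (n + 1) *
        ((((a * d - b * c : ℤ) : ℝ) : ℂ)) ^ (-(n : ℤ) - 1)) *
      (v i * (((a : ℂ) * τ + b) ^ (i : ℕ) * ((c : ℂ) * τ + d) ^ (n - (i : ℕ)))) *
      (((c : ℂ) * τ + d) ^ (i : ℕ) / ((c : ℂ) * τ + d) ^ (i : ℕ)) := by
    ring
  rw [e1, hz, div_self hdeni, one_mul, mul_one]

end Fermat.Agent.S22
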