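import Mathlib
import Fermat.Prelude.Def_CuspForm_HeckeAlgebra
import Fermat.Prelude.Sol.S_ModularForm_heckeT_slash_eq_self_of_mem_Gamma0
import Fermat.Agent.S22.Defs
import Fermat.Agent.S22.IterD
import Fermat.Agent.S22.Bol
import Fermat.Agent.S22.PolyZero
import Fermat.Agent.S22.PolyAct
import Fermat.Agent.S22.Abstract
import Fermat.Agent.S22.SmallWeight
import Fermat.Agent.S22.Gamma0FG
import Fermat.Agent.S22.Injective
import Fermat.Agent.S22.Eichler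
import Fermat.Agent.S22.EichlerHecke

set_option autoImplicit false

namespace Fermat.Agent.S22

open UpperHalfPlane Derivative
open scoped MatrixGroups ModularForm Manifold

section cocycle

variable {N : ℕ} [NeZero N] (n : ℕ)

theorem mdiff_SL_slash {F : ℍ → ℂ} (hF : MDiff F) (k : ℤ) (γ : SL(2, ℤ)) : MDiff (F ∣[k] γ) := by
  rw [ModularForm.SL_slash]
  exact hF.slash k _

theorem sub_SL_slash (k : ℤ) (γ : SL(2, ℤ)) (F G : ℍ → ℂ) :
    (F - G) ∣[k] γ = F ∣[k] γ - G ∣[k] γ := by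
  rw [sub_eq_add_neg, SlashAction.add_slash, SlashAction.neg_slash, ← sub_eq_add_neg]

theorem sub_GL_slash (k : ℤ) (g : GL (Fin 2) ℝ) (F G : ℍ → ℂ) :
    (F - G) ∣[k] g = F ∣[k] g - G ∣[k] g := by
  rw [sub_eq_add_neg, SlashAction.add_slash, SlashAction.neg_slash, ← sub_eq_add_neg]

theorem polyFun_sum {ι : Type*} (s : Finset ι) (c : ι → Fin (n + 1) → ℂ) :
    polyFun n (∑ x ∈ s, c x) = ∑ x ∈ s, polyFun n (c x) := by
  classical
  induction s using Finset.induction_on with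
  | empty => simp [polyFun_zero]
  | insert a s ha ih => rw [Finset.sum_insert ha, Finset.sum_insert ha, polyFun_add, ih]

theorem cocycle_exists (f : CuspForm (CongruenceSubgroup.Gamma0 N) ((n : ℤ) + 2)) (γ : SL(2, ℤ))
    (hγ : γ ∈ CongruenceSubgroup.Gamma0 N) :
    ∃ c : Fin (n + 1) → ℂ, eichler n ⇑f ∣[-(n : ℤ)] γ - eichler n ⇑f = polyFun n c := by
  have hf := isCuspPer_of_cuspForm f
  have hE := eichler_isCuspPer n hf
  have hEs : MDiff (eichler n ⇑f ∣[-(n : ℤ)] γ) := mdiff_SL_slash hE.mdiff _ γ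
  apply exists_polyFun_of_iterate_D_eq_zero n (hEs.sub hE.mdiff)
  rw [iterate_D_sub _ hEs hE.mdiff, bol n hE.mdiff γ, iterate_D_eichler n hf]
  have : (⇑f : ℍ → ℂ) ∣[(n : ℤ) + 2] γ = ⇑f := by
    rw [ModularForm.SL_slash]
    exact SlashInvariantFormClass.slash_action_eq f _ (Subgroup.mem_map_of_mem _ hγ)
  rw [this, sub_self]

/-- The coefficient vector of the period polynomial of `f` at `γ`. -/
noncomputable def coc (f : CuspForm (CongruenceSubgroup.Gamma0 N) ((n : ℤ) + 2)) (γ : SL(2, ℤ)) :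
    Fin (n + 1) → ℂ :=
  open Classical in
  if h : ∃ c : Fin (n + 1) → ℂ, eichler n ⇑f ∣[-(n : ℤ)] γ - eichler n ⇑f = polyFun n c then
    h.choose
  else 0

theorem coc_spec (f : CuspForm (CongruenceSubgroup.Gamma0 N) ((n : ℤ) + 2)) {γ : SL(2, ℤ)}
    (hγ : γ ∈ CongruenceSubgroup.Gamma0 N) :
    eichler n ⇑f ∣[-(n : ℤ)] γ - eichler n ⇑f = polyFun n (coc n f γ) := by
  unfold coc
  rw [dif_pos (cocycle_exists n f γ hγ)]
  exact (cocycle_exists n f γ hγ).choose_spec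

omit [NeZero N] in
theorem coc_eq_of {f : CuspForm (CongruenceSubgroup.Gamma0 N) ((n : ℤ) + 2)} {γ : SL(2, ℤ)}
    {c : Fin (n + 1) → ℂ}
    (h : eichler n ⇑f ∣[-(n : ℤ)] γ - eichler n ⇑f = polyFun n c) : coc n f γ = c := by
  have h' : ∃ c : Fin (n + 1) → ℂ, eichler n ⇑f ∣[-(n : ℤ)] γ - eichler n ⇑f = polyFun n c :=
    ⟨c, h⟩
  unfold coc
  rw [dif_pos h']
  exact polyFun_injective n (h'.choose_spec.symm.trans h)

theorem coc_add (f g : CuspForm (CongruenceSubgroup.Gamma0 N) ((n : ℤ) + 2)) {γ : SL(2, ℤ)}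
    (hγ : γ ∈ CongruenceSubgroup.Gamma0 N) :
    coc n (f + g) γ = coc n f γ + coc n g γ := by
  apply coc_eq_of
  rw [FunLike.coe_add, eichler_add n (isCuspPer_of_cuspForm f) (isCuspPer_of_cuspForm g),
    SlashAction.add_slash, polyFun_add, ← coc_spec n f hγ, ← coc_spec n g hγ]
  abel

theorem coc_smul (a : ℂ) (f : CuspForm (CongruenceSubgroup.Gamma0 N) ((n : ℤ) + 2))
    {γ : SL(2, ℤ)} (hγ : γ ∈ CongruenceSubgroup.Gamma0 N) :
    coc n (a • f) γ = a • coc n f γ := by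
  apply coc_eq_of
  rw [FunLike.coe_smul, eichler_smul n a (isCuspPer_of_cuspForm f),
    ModularForm.SL_smul_slash, polyFun_smul, ← coc_spec n f hγ, smul_sub]

/-- The period functionals. -/
noncomputable def cocLin (γ : SL(2, ℤ)) (i : Fin (n + 1)) :
    CuspForm (CongruenceSubgroup.Gamma0 N) ((n : ℤ) + 2) →ₗ[ℂ] ℂ :=
  open Classical in
  if hγ : γ ∈ CongruenceSubgroup.Gamma0 N then
    { toFun := fun f => coc n f γ i
      map_add' := fun f g => by rw [coc_add n f g hγ]; rfl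
      map_smul' := fun a f => by rw [coc_smul n a f hγ]; rfl }
  else 0

theorem cocLin_apply {γ : SL(2, ℤ)} (hγ : γ ∈ CongruenceSubgroup.Gamma0 N) (i : Fin (n + 1))
    (f : CuspForm (CongruenceSubgroup.Gamma0 N) ((n : ℤ) + 2)) :
    cocLin n γ i f = coc n f γ i := by
  unfold cocLin
  rw [dif_pos hγ]
  rfl

theorem cocLin_of_not_mem {γ : SL(2, ℤ)} (hγ : γ ∉ CongruenceSubgroup.Gamma0 N) (i : Fin (n + 1)) :
    cocLin (N := N) n γ i = 0 := by
  unfold cocLin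
  rw [dif_neg hγ]

/-- The lattice of period functionals. -/
noncomputable def cocLattice (N : ℕ) [NeZero N] (n : ℕ) :
    Submodule ℤ (Module.Dual ℂ (CuspForm (CongruenceSubgroup.Gamma0 N) ((n : ℤ) + 2))) :=
  Submodule.span ℤ (Set.range fun p : SL(2, ℤ) × Fin (n + 1) => cocLin (N := N) n p.1 p.2)

theorem cocLin_mem_cocLattice (γ : SL(2, ℤ)) (i : Fin (n + 1)) :
    cocLin (N := N) n γ i ∈ cocLattice N n :=
  Submodule.subset_span ⟨(γ, i), rfl⟩

theorem coe_mapGL_eq (δ : SL(2, ℤ)) :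
    ((Matrix.SpecialLinearGroup.mapGL ℝ δ : GL (Fin 2) ℝ) : Matrix (Fin 2) (Fin 2) ℝ) =
      !![((δ 0 0 : ℤ) : ℝ), ((δ 0 1 : ℤ) : ℝ); ((δ 1 0 : ℤ) : ℝ), ((δ 1 1 : ℤ) : ℝ)] := by
  ext i j
  fin_cases i <;> fin_cases j <;> simp

theorem exists_intMatrix_SL_slash (δ : SL(2, ℤ)) :
    ∃ R : Matrix (Fin (n + 1)) (Fin (n + 1)) ℤ, ∀ v : Fin (n + 1) → ℂ,
      polyFun n v ∣[-(n : ℤ)] δ = polyFun n ((R.map (Int.cast : ℤ → ℂ)).mulVec v) := by
  have hdet : δ 0 0 * δ 1 1 - δ 0 1 * δ 1 0 = 1 := by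
    have h := δ.det_coe
    rwa [Matrix.det_fin_two] at h
  obtain ⟨R, hR⟩ := exists_intMatrix_slash n (Matrix.SpecialLinearGroup.mapGL ℝ δ)
    (δ 0 0) (δ 0 1) (δ 1 0) (δ 1 1) (coe_mapGL_eq δ) (by rw [hdet]; exact one_pos)
  refine ⟨R, fun v => ?_⟩
  have h := hR v
  rw [hdet] at h
  simp only [Int.cast_one, one_pow, one_smul] at h
  exact h

theorem coc_one (f : CuspForm (CongruenceSubgroup.Gamma0 N) ((n : ℤ) + 2)) : coc n f 1 = 0 := by
  apply coc_eq_of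
  rw [SlashAction.slash_one, sub_self, polyFun_zero]

theorem coc_mul (f : CuspForm (CongruenceSubgroup.Gamma0 N) ((n : ℤ) + 2)) {γ δ : SL(2, ℤ)}
    (hγ : γ ∈ CongruenceSubgroup.Gamma0 N) (hδ : δ ∈ CongruenceSubgroup.Gamma0 N)
    (R : Matrix (Fin (n + 1)) (Fin (n + 1)) ℤ)
    (hR : ∀ v : Fin (n + 1) → ℂ,
      polyFun n v ∣[-(n : ℤ)] δ = polyFun n ((R.map (Int.cast : ℤ → ℂ)).mulVec v)) :
    coc n f (γ * δ) = (R.map (Int.cast : ℤ → ℂ)).mulVec (coc n f γ) + coc n f δ := by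
  apply coc_eq_of
  rw [polyFun_add, ← hR, ← coc_spec n f hγ, ← coc_spec n f hδ, SlashAction.slash_mul,
    sub_SL_slash]
  abel

theorem cocLin_one (i : Fin (n + 1)) : cocLin (N := N) n 1 i = 0 := by
  ext f
  rw [cocLin_apply n (one_mem _), coc_one]
  rfl

theorem cocLin_mul {γ δ : SL(2, ℤ)}
    (hγ : γ ∈ CongruenceSubgroup.Gamma0 N) (hδ : δ ∈ CongruenceSubgroup.Gamma0 N)
    (R : Matrix (Fin (n + 1)) (Fin (n + 1)) ℤ)
    (hR : ∀ v : Fin (n + 1) → ℂ,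
      polyFun n v ∣[-(n : ℤ)] δ = polyFun n ((R.map (Int.cast : ℤ → ℂ)).mulVec v))
    (i : Fin (n + 1)) :
    cocLin (N := N) n (γ * δ) i = ∑ j, R i j • cocLin (N := N) n γ j + cocLin n δ i := by
  ext f
  rw [cocLin_apply n (mul_mem hγ hδ), coc_mul n f hγ hδ R hR, LinearMap.add_apply,
    cocLin_apply n hδ, LinearMap.sum_apply, Pi.add_apply]
  congr 1
  simp only [Matrix.mulVec, dotProduct, Matrix.map_apply, LinearMap.smul_apply, zsmul_eq_mul]
  exact Finset.sum_congr rfl fun j _ => by rw [cocLin_apply n hγ]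

theorem cocLin_inv {γ : SL(2, ℤ)} (hγ : γ ∈ CongruenceSubgroup.Gamma0 N)
    (R : Matrix (Fin (n + 1)) (Fin (n + 1)) ℤ)
    (hR : ∀ v : Fin (n + 1) → ℂ,
      polyFun n v ∣[-(n : ℤ)] γ⁻¹ = polyFun n ((R.map (Int.cast : ℤ → ℂ)).mulVec v))
    (i : Fin (n + 1)) :
    cocLin (N := N) n γ⁻¹ i = -∑ j, R i j • cocLin (N := N) n γ j := by
  have h := cocLin_mul n hγ (inv_mem hγ) R hR i
  rw [mul_inv_cancel, cocLin_one] at h
  exact eq_neg_of_add_eq_zero_right h.symm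

theorem cocLin_mem_span_of_closure (S : Set SL(2, ℤ))
    (hS : Subgroup.closure S = CongruenceSubgroup.Gamma0 N) {γ : SL(2, ℤ)}
    (hγ : γ ∈ Subgroup.closure S) (i : Fin (n + 1)) :
    cocLin (N := N) n γ i ∈
      Submodule.span ℤ (Set.range fun p : S × Fin (n + 1) => cocLin (N := N) n p.1 p.2) := by
  induction hγ using Subgroup.closure_induction generalizing i with
  | mem x hx => exact Submodule.subset_span ⟨(⟨x, hx⟩, i), rfl⟩
  | one => rw [cocLin_one]; exact zero_mem _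
  | mul x y hx hy ihx ihy =>
    obtain ⟨R, hR⟩ := exists_intMatrix_SL_slash n y
    rw [cocLin_mul n (hS ▸ hx) (hS ▸ hy) R hR i]
    exact add_mem (sum_mem fun j _ => Submodule.smul_mem _ _ (ihx j)) (ihy i)
  | inv x hx ihx =>
    obtain ⟨R, hR⟩ := exists_intMatrix_SL_slash n x⁻¹
    rw [cocLin_inv n (hS ▸ hx) R hR i]
    exact neg_mem (sum_mem fun j _ => Submodule.smul_mem _ _ (ihx j))

theorem cocLattice_fg : (cocLattice N n).FG := by
  obtain ⟨S, hS⟩ := exists_finset_closure_eq_Gamma0 N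
  have hfg : (Submodule.span ℤ (Set.range fun p : ↥(S : Set SL(2, ℤ)) × Fin (n + 1) =>
      cocLin (N := N) n p.1 p.2)).FG :=
    Submodule.fg_span (Set.finite_range _)
  refine hfg.of_le (Submodule.span_le.mpr ?_)
  rintro _ ⟨⟨γ, i⟩, rfl⟩
  by_cases hγ : γ ∈ CongruenceSubgroup.Gamma0 N
  · exact cocLin_mem_span_of_closure n _ hS (hS ▸ hγ) i
  · simp only [cocLin_of_not_mem n hγ]
    exact zero_mem _

theorem coc_hecke {ι : Type*} [Fintype ι] (α : ι → GL (Fin 2) ℝ)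
    (R : ι → Matrix (Fin (n + 1)) (Fin (n + 1)) ℤ) (d : ℂ)
    (hR : ∀ x v, d • (polyFun n v ∣[-(n : ℤ)] α x) =
      polyFun n (((R x).map (Int.cast : ℤ → ℂ)).mulVec v))
    (f f' : CuspForm (CongruenceSubgroup.Gamma0 N) ((n : ℤ) + 2))
    (hE : eichler n ⇑f' = d • ∑ x, eichler n ⇑f ∣[-(n : ℤ)] α x)
    {γ : SL(2, ℤ)} (π : Equiv.Perm ι) (γ' : ι → SL(2, ℤ))
    (hγ' : ∀ x, γ' x ∈ CongruenceSubgroup.Gamma0 N)
    (hmul : ∀ x, α x * Matrix.SpecialLinearGroup.mapGL ℝ γ =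
      Matrix.SpecialLinearGroup.mapGL ℝ (γ' x) * α (π x)) :
    coc n f' γ = ∑ x, ((R (π x)).map (Int.cast : ℤ → ℂ)).mulVec (coc n f (γ' x)) := by
  apply coc_eq_of
  rw [hE, ModularForm.SL_smul_slash, ← smul_sub, polyFun_sum]
  have key : (∑ x, eichler n ⇑f ∣[-(n : ℤ)] α x) ∣[-(n : ℤ)] γ -
      ∑ x, eichler n ⇑f ∣[-(n : ℤ)] α x =
      ∑ x, (polyFun n (coc n f (γ' x))) ∣[-(n : ℤ)] α (π x) := by
    have h1 : (∑ x, eichler n ⇑f ∣[-(n : ℤ)] α x) ∣[-(n : ℤ)] γ =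
        ∑ x, (eichler n ⇑f ∣[-(n : ℤ)] α x) ∣[-(n : ℤ)] (Matrix.SpecialLinearGroup.mapGL ℝ γ) := by
      show (∑ x, eichler n ⇑f ∣[-(n : ℤ)] α x) ∣[-(n : ℤ)] (Matrix.SpecialLinearGroup.mapGL ℝ γ) = _
      exact SlashAction.sum_slash _ _
    rw [h1, ← Equiv.sum_comp π (fun x => eichler n ⇑f ∣[-(n : ℤ)] α x), ← Finset.sum_sub_distrib]
    refine Finset.sum_congr rfl fun x _ => ?_
    rw [← SlashAction.slash_mul, hmul x, SlashAction.slash_mul, ← coc_spec n f (hγ' x),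
      sub_GL_slash]
    rfl
  rw [key, Finset.smul_sum]
  exact Finset.sum_congr rfl fun x _ => hR _ _

theorem cocLin_comp_mem_of_hecke {ι : Type*} [Fintype ι]
    (T : Module.End ℂ (CuspForm (CongruenceSubgroup.Gamma0 N) ((n : ℤ) + 2)))
    (α : ι → GL (Fin 2) ℝ) (d : ℂ)
    (hR : ∀ x, ∃ R : Matrix (Fin (n + 1)) (Fin (n + 1)) ℤ, ∀ v : Fin (n + 1) → ℂ,
      d • (polyFun n v ∣[-(n : ℤ)] α x) = polyFun n ((R.map (Int.cast : ℤ → ℂ)).mulVec v))
    (hE : ∀ f : CuspForm (CongruenceSubgroup.Gamma0 N) ((n : ℤ) + 2),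
      eichler n ⇑(T f) = d • ∑ x, eichler n ⇑f ∣[-(n : ℤ)] α x)
    (hperm : ∀ γ ∈ CongruenceSubgroup.Gamma0 N, ∃ (π : Equiv.Perm ι) (γ' : ι → SL(2, ℤ)),
      (∀ x, γ' x ∈ CongruenceSubgroup.Gamma0 N) ∧
      ∀ x, α x * Matrix.SpecialLinearGroup.mapGL ℝ γ =
        Matrix.SpecialLinearGroup.mapGL ℝ (γ' x) * α (π x))
    (γ : SL(2, ℤ)) (i : Fin (n + 1)) :
    cocLin (N := N) n γ i ∘ₗ T ∈ cocLattice N n := by
  by_cases hγ : γ ∈ CongruenceSubgroup.Gamma0 N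
  · obtain ⟨π, γ', hγ', hmul⟩ := hperm γ hγ
    choose R hR using hR
    have h : cocLin (N := N) n γ i ∘ₗ T =
        ∑ x, ∑ j, R (π x) i j • cocLin (N := N) n (γ' x) j := by
      ext f
      rw [LinearMap.comp_apply, cocLin_apply n hγ,
        coc_hecke n α R d hR f (T f) (hE f) π γ' hγ' hmul, LinearMap.sum_apply,
        Finset.sum_apply]
      refine Finset.sum_congr rfl fun x _ => ?_
      simp only [Matrix.mulVec, dotProduct, Matrix.map_apply, LinearMap.sum_apply,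
        LinearMap.smul_apply, zsmul_eq_mul]
      exact Finset.sum_congr rfl fun j _ => by rw [cocLin_apply n (hγ' x)]
    rw [h]
    exact sum_mem fun x _ => sum_mem fun j _ =>
      Submodule.smul_mem _ _ (cocLin_mem_cocLattice n _ _)
  · rw [cocLin_of_not_mem n hγ, LinearMap.zero_comp]
    exact zero_mem _

theorem comp_mem_cocLattice_of_hecke {ι : Type*} [Fintype ι]
    (T : Module.End ℂ (CuspForm (CongruenceSubgroup.Gamma0 N) ((n : ℤ) + 2)))
    (α : ι → GL (Fin 2) ℝ) (d : ℂ)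
    (hR : ∀ x, ∃ R : Matrix (Fin (n + 1)) (Fin (n + 1)) ℤ, ∀ v : Fin (n + 1) → ℂ,
      d • (polyFun n v ∣[-(n : ℤ)] α x) = polyFun n ((R.map (Int.cast : ℤ → ℂ)).mulVec v))
    (hE : ∀ f : CuspForm (CongruenceSubgroup.Gamma0 N) ((n : ℤ) + 2),
      eichler n ⇑(T f) = d • ∑ x, eichler n ⇑f ∣[-(n : ℤ)] α x)
    (hperm : ∀ γ ∈ CongruenceSubgroup.Gamma0 N, ∃ (π : Equiv.Perm ι) (γ' : ι → SL(2, ℤ)),
      (∀ x, γ' x ∈ CongruenceSubgroup.Gamma0 N) ∧
      ∀ x, α x * Matrix.SpecialLinearGroup.mapGL ℝ γ =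
        Matrix.SpecialLinearGroup.mapGL ℝ (γ' x) * α (π x))
    (Λ : Module.Dual ℂ (CuspForm (CongruenceSubgroup.Gamma0 N) ((n : ℤ) + 2)))
    (hΛ : Λ ∈ cocLattice N n) : Λ ∘ₗ T ∈ cocLattice N n := by
  unfold cocLattice at hΛ
  induction hΛ using Submodule.span_induction with
  | mem x hx =>
    obtain ⟨⟨γ, i⟩, rfl⟩ := hx
    exact cocLin_comp_mem_of_hecke n T α d hR hE hperm γ i
  | zero => rw [LinearMap.zero_comp]; exact zero_mem _
  | add x y _ _ hx hy => rw [LinearMap.add_comp]; exact add_mem hx hy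
  | smul a x _ hx => rw [LinearMap.smul_comp]; exact Submodule.smul_mem _ _ hx

theorem exists_intMatrix_heckeMatrix {p : ℕ} (hp : p ≠ 0) (j : ℕ) :
    ∃ R : Matrix (Fin (n + 1)) (Fin (n + 1)) ℤ, ∀ v : Fin (n + 1) → ℂ,
      (p : ℂ) ^ (n + 1) • (polyFun n v ∣[-(n : ℤ)] ModularForm.heckeMatrix p j) =
        polyFun n ((R.map (Int.cast : ℤ → ℂ)).mulVec v) := by
  obtain ⟨R, hR⟩ := exists_intMatrix_slash n (ModularForm.heckeMatrix p j) 1 j 0 p
    (by rw [ModularForm.val_heckeMatrix hp]; simp)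
    (by have : 0 < (p : ℤ) := by exact_mod_cast Nat.pos_of_ne_zero hp
        simpa using this)
  refine ⟨R, fun v => ?_⟩
  have h := hR v
  simpa using h

theorem exists_intMatrix_heckeDiagMatrix {p : ℕ} (hp : p ≠ 0) :
    ∃ R : Matrix (Fin (n + 1)) (Fin (n + 1)) ℤ, ∀ v : Fin (n + 1) → ℂ,
      (p : ℂ) ^ (n + 1) • (polyFun n v ∣[-(n : ℤ)] ModularForm.heckeDiagMatrix p) =
        polyFun n ((R.map (Int.cast : ℤ → ℂ)).mulVec v) := by
  obtain ⟨R, hR⟩ := exists_intMatrix_slash n (ModularForm.heckeDiagMatrix p) p 0 0 1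
    (by rw [ModularForm.val_heckeDiagMatrix hp]; simp)
    (by have : 0 < (p : ℤ) := by exact_mod_cast Nat.pos_of_ne_zero hp
        simpa using this)
  refine ⟨R, fun v => ?_⟩
  have h := hR v
  simpa using h

open P2MW.S_ModularForm_heckeT_slash_eq_self_of_mem_Gamma0.ModularForm.HeckeSlashInvariance in
theorem exists_intMatrix_heckeRep {p : ℕ} (hp : p ≠ 0) (x : OnePoint (ZMod p)) :
    ∃ R : Matrix (Fin (n + 1)) (Fin (n + 1)) ℤ, ∀ v : Fin (n + 1) → ℂ,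
      (p : ℂ) ^ (n + 1) • (polyFun n v ∣[-(n : ℤ)] heckeRep p x) =
        polyFun n ((R.map (Int.cast : ℤ → ℂ)).mulVec v) := by
  induction x using OnePoint.rec with
  | infty => exact exists_intMatrix_heckeDiagMatrix n hp
  | coe j => exact exists_intMatrix_heckeMatrix n hp j.val

open P2MW.S_ModularForm_heckeT_slash_eq_self_of_mem_Gamma0.ModularForm.HeckeSlashInvariance in
theorem heckeTLin_comp_mem {p : ℕ} (hp : p.Prime) (hpN : ¬ p ∣ N)
    (Λ : Module.Dual ℂ (CuspForm (CongruenceSubgroup.Gamma0 N) ((n : ℤ) + 2)))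
    (hΛ : Λ ∈ cocLattice N n) :
    Λ ∘ₗ CuspForm.heckeTLin ((n : ℤ) + 2) hp hpN ∈ cocLattice N n := by
  have : Fact p.Prime := ⟨hp⟩
  have : NeZero p := ⟨hp.ne_zero⟩
  refine comp_mem_cocLattice_of_hecke n _ (heckeRep p) ((p : ℂ) ^ (n + 1))
    (exists_intMatrix_heckeRep n hp.ne_zero) ?_ ?_ Λ hΛ
  · intro f
    have hTf : IsCuspPer 1 (ModularForm.heckeT ((n : ℤ) + 2) p ⇑f) := by
      have := isCuspPer_of_cuspForm (CuspForm.heckeTLin ((n : ℤ) + 2) hp hpN f)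
      rwa [CuspForm.coe_heckeTLin_apply] at this
    rw [CuspForm.coe_heckeTLin_apply,
      eichler_heckeT n hp.ne_zero (isCuspPer_of_cuspForm f) hTf, heckeT_eq_sum_onePoint]
  · intro γ hγ
    have hcN : (N : ℤ) ∣ γ 1 0 :=
      (ZMod.intCast_zmod_eq_zero_iff_dvd _ _).mp (CongruenceSubgroup.Gamma0_mem.mp hγ)
    choose γ' hγ'N hmul using fun x => heckeRep_mul hpN γ hcN x
    exact ⟨MulAction.toPerm (redMatrix p γ), γ', fun x => CongruenceSubgroup.Gamma0_mem.mpr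
      ((ZMod.intCast_zmod_eq_zero_iff_dvd _ _).mpr (hγ'N x)), hmul⟩

open P2MW.S_ModularForm_heckeT_slash_eq_self_of_mem_Gamma0.ModularForm.HeckeSlashInvariance in
theorem heckeULin_comp_mem {q : ℕ} (hq : q.Prime) (hqN : q ∣ N)
    (Λ : Module.Dual ℂ (CuspForm (CongruenceSubgroup.Gamma0 N) ((n : ℤ) + 2)))
    (hΛ : Λ ∈ cocLattice N n) :
    Λ ∘ₗ CuspForm.heckeULin ((n : ℤ) + 2) hqN ∈ cocLattice N n := by
  have : NeZero q := ⟨hq.ne_zero⟩
  refine comp_mem_cocLattice_of_hecke n _ (fun x : ZMod q => ModularForm.heckeMatrix q x.val)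
    ((q : ℂ) ^ (n + 1)) (fun x => exists_intMatrix_heckeMatrix n hq.ne_zero x.val) ?_ ?_ Λ hΛ
  · intro f
    have hUf : IsCuspPer 1 (ModularForm.heckeU ((n : ℤ) + 2) q ⇑f) := by
      have := isCuspPer_of_cuspForm (CuspForm.heckeULin ((n : ℤ) + 2) hqN f)
      rwa [CuspForm.coe_heckeULin_apply] at this
    rw [CuspForm.coe_heckeULin_apply,
      eichler_heckeU n hq.ne_zero (isCuspPer_of_cuspForm f) hUf, heckeU_eq_sum_zmod]
  · intro γ hγ
    have hcN : (N : ℤ) ∣ γ 1 0 :=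
      (ZMod.intCast_zmod_eq_zero_iff_dvd _ _).mp (CongruenceSubgroup.Gamma0_mem.mp hγ)
    have hc : (q : ℤ) ∣ γ 1 0 := (Int.natCast_dvd_natCast.mpr hqN).trans hcN
    choose γ' hγ'0 hmul using fun x => heckeMatrix_mul_of_dvd γ hc x
    refine ⟨affinePerm γ ((ZMod.intCast_zmod_eq_zero_iff_dvd _ _).mpr hc), γ', fun x => ?_, hmul⟩
    rw [CongruenceSubgroup.Gamma0_mem, hγ'0 x]
    push_cast
    rw [CongruenceSubgroup.Gamma0_mem.mp hγ, mul_zero]

theorem cocLattice_separates (f : CuspForm (CongruenceSubgroup.Gamma0 N) ((n : ℤ) + 2))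
    (h : ∀ Λ ∈ cocLattice N n, Λ f = 0) : f = 0 := by
  have hf := isCuspPer_of_cuspForm f
  refine eq_zero_of_invariant_eichler n f (eichler n ⇑f) (eichler_isCuspPer n hf)
    (iterate_D_eichler n hf) fun γ hγ => ?_
  have h0 : coc n f γ = 0 := by
    funext i
    have := h _ (cocLin_mem_cocLattice n γ i)
    rwa [cocLin_apply n hγ] at this
  have := coc_spec n f hγ
  rw [h0, polyFun_zero] at this
  exact sub_eq_zero.mp this

theorem heckeAlgebra_finite_of_two_le (N : ℕ) [NeZero N] (n : ℕ) (S : Set ℕ) :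
    Module.Finite ℤ (CuspForm.heckeAlgebra N ((n : ℤ) + 2) S) := by
  refine finite_adjoin_of_dual_lattice (CuspForm.heckeGenerators N ((n : ℤ) + 2) S)
    (cocLattice N n) (cocLattice_fg n) (cocLattice_separates n) ?_
  rintro T (⟨ℓ, hℓ, hℓN, -, rfl⟩ | ⟨q, hqN, hq, -, rfl⟩) Λ hΛ
  · exact heckeTLin_comp_mem n hℓ hℓN Λ hΛ
  · exact heckeULin_comp_mem n hq hqN Λ hΛ

theorem heckeAlgebra_finite (N : ℕ) [NeZero N] (k : ℤ) (S : Set ℕ) :
    Module.Finite ℤ (CuspForm.heckeAlgebra N k S) := by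
  rcases le_or_gt k 1 with hk | hk
  · have : Subsingleton (CuspForm (CongruenceSubgroup.Gamma0 N) k) :=
      ⟨fun f g => by
        rw [cuspForm_eq_zero_of_weight_le_one hk f, cuspForm_eq_zero_of_weight_le_one hk g]⟩
    have : Subsingleton (Module.End ℂ (CuspForm (CongruenceSubgroup.Gamma0 N) k)) :=
      ⟨fun a b => LinearMap.ext fun x => Subsingleton.elim _ _⟩
    exact Module.Finite.of_finite
  · obtain ⟨n, rfl⟩ : ∃ n : ℕ, k = (n : ℤ) + 2 := ⟨(k - 2).toNat, by omega⟩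
    exact heckeAlgebra_finite_of_two_le N n S

end cocycle

end Fermat.Agent.S22
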