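import Mathlib
import Fermat.Agent.S22.Defs

set_option autoImplicit false

noncomputable section

namespace Fermat.Agent.S22

open Complex Function Filter Topology Metric
open UpperHalfPlane hiding I
open scoped Real Manifold

/-- The integrand on the unit disc whose primitive gives the normalised primitive of `g`. -/
def h57_primIntegrand (h : ℝ) (g : ℍ → ℂ) (q : ℂ) : ℂ :=
  (h / (2 * π * I)) * dslope (cuspFunction h g) 0 q

lemma h57_exists_primCusp {h : ℝ} (hh : 0 < h) {g : ℍ → ℂ} (hg : IsCuspPer h g) :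
    ∃ G : ℂ → ℂ, G 0 = 0 ∧ ∀ q ∈ ball (0 : ℂ) 1, HasDerivAt G (h57_primIntegrand h g q) q := by
  have hd : DifferentiableOn ℂ (cuspFunction h g) (ball 0 1) :=
    differentiableOn_cuspFunction_ball hh hg.periodic hg.mdiff hg.zero.isBoundedAtImInfty
  have hd' : DifferentiableOn ℂ (dslope (cuspFunction h g) 0) (ball 0 1) :=
    (Complex.differentiableOn_dslope (ball_mem_nhds 0 one_pos)).mpr hd
  have hd'' : DifferentiableOn ℂ (h57_primIntegrand h g) (ball 0 1) := by
    unfold h57_primIntegrand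
    exact hd'.const_mul _
  exact (hd''.isExactOn_ball).with_val_at 0 0

open Classical in
/-- A primitive on the unit disc, vanishing at `0`, of `h57_primIntegrand h g`. -/
def h57_primCusp (h : ℝ) (g : ℍ → ℂ) : ℂ → ℂ :=
  if H : ∃ G : ℂ → ℂ, G 0 = 0 ∧ ∀ q ∈ ball (0 : ℂ) 1, HasDerivAt G (h57_primIntegrand h g q) q
  then H.choose else 0

lemma h57_primCusp_zero {h : ℝ} (hh : 0 < h) {g : ℍ → ℂ} (hg : IsCuspPer h g) :
    h57_primCusp h g 0 = 0 := by
  unfold h57_primCusp
  rw [dif_pos (h57_exists_primCusp hh hg)]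
  exact (h57_exists_primCusp hh hg).choose_spec.1

lemma h57_hasDerivAt_primCusp {h : ℝ} (hh : 0 < h) {g : ℍ → ℂ} (hg : IsCuspPer h g) {q : ℂ}
    (hq : q ∈ ball (0 : ℂ) 1) : HasDerivAt (h57_primCusp h g) (h57_primIntegrand h g q) q := by
  unfold h57_primCusp
  rw [dif_pos (h57_exists_primCusp hh hg)]
  exact (h57_exists_primCusp hh hg).choose_spec.2 q hq

/-- The normalised primitive (vanishing at `i∞`) of an `h`-periodic holomorphic function
vanishing at `i∞`. -/
def h57_prim (h : ℝ) (g : ℍ → ℂ) : ℍ → ℂ :=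
  fun τ => h57_primCusp h g (Periodic.qParam h τ)


lemma h57_hasDerivAt_qParam (h : ℝ) (z : ℂ) :
    HasDerivAt (Periodic.qParam h) (Periodic.qParam h z * (2 * π * I / h)) z := by
  unfold Periodic.qParam
  have h1 : HasDerivAt (fun z : ℂ => 2 * π * I * z / h) (2 * π * I / h) z := by
    have := ((hasDerivAt_id z).const_mul (2 * π * I)).div_const (h : ℂ)
    simpa using this
  exact (Complex.hasDerivAt_exp _).comp z h1

lemma h57_prim_comp_ofComplex_eventuallyEq (h : ℝ) (g : ℍ → ℂ) {z : ℂ} (hz : 0 < z.im) :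
    (h57_prim h g ∘ ofComplex) =ᶠ[𝓝 z] fun w => h57_primCusp h g (Periodic.qParam h w) := by
  have hopen : IsOpen {w : ℂ | 0 < w.im} := isOpen_lt continuous_const Complex.continuous_im
  filter_upwards [hopen.mem_nhds hz] with w hw
  simp only [Function.comp_apply, h57_prim, ofComplex_apply_of_im_pos hw]

/-- The derivative of the normalised primitive is the function. -/
theorem h57_hasDerivAt_prim {h : ℝ} (hh : 0 < h) {g : ℍ → ℂ} (hg : IsCuspPer h g) (τ : ℍ) :
    HasDerivAt (h57_prim h g ∘ ofComplex) (g τ) (τ : ℂ) := by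
  have hq1 : Periodic.qParam h (τ : ℂ) ∈ ball (0 : ℂ) 1 := by
    rw [mem_ball_zero_iff]
    exact Periodic.norm_qParam_lt_one hh τ.im_pos
  have hq0 : Periodic.qParam h (τ : ℂ) ≠ 0 := Periodic.qParam_ne_zero _
  have h1 := (h57_hasDerivAt_primCusp hh hg hq1).comp (τ : ℂ) (h57_hasDerivAt_qParam h τ)
  have hval : h57_primIntegrand h g (Periodic.qParam h (τ : ℂ)) *
      (Periodic.qParam h (τ : ℂ) * (2 * π * I / h)) = g τ := by
    have hc0 : cuspFunction h g 0 = 0 := hg.zero.cuspFunction_apply_zero hh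
    have hcq : cuspFunction h g (Periodic.qParam h (τ : ℂ)) = g τ :=
      eq_cuspFunction τ hh.ne' hg.periodic
    unfold h57_primIntegrand
    rw [dslope_of_ne _ hq0, slope, hc0, hcq]
    have hh' : (h : ℂ) ≠ 0 := by exact_mod_cast hh.ne'
    have hpi : (2 * π * I : ℂ) ≠ 0 := Complex.two_pi_I_ne_zero
    simp only [sub_zero, vsub_eq_sub, smul_eq_mul]
    field_simp
  rw [hval] at h1
  exact h1.congr_of_eventuallyEq (h57_prim_comp_ofComplex_eventuallyEq h g τ.im_pos)


lemma h57_cuspPer_prim {h : ℝ} (hh : 0 < h) {g : ℍ → ℂ} (hg : IsCuspPer h g) :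
    IsCuspPer h (h57_prim h g) where
  mdiff := by
    rw [UpperHalfPlane.mdifferentiable_iff]
    intro z hz
    have := h57_hasDerivAt_prim hh hg ⟨z, hz⟩
    exact this.differentiableAt.differentiableWithinAt
  periodic := by
    intro w
    by_cases hw : 0 < w.im
    · have hw' : 0 < (w + h).im := by simpa using hw
      simp only [Function.comp_apply, h57_prim, ofComplex_apply_of_im_pos hw,
        ofComplex_apply_of_im_pos hw']
      congr 1
      show Periodic.qParam h (w + h) = Periodic.qParam h w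
      unfold Periodic.qParam
      have hh' : (h : ℂ) ≠ 0 := by exact_mod_cast hh.ne'
      rw [show 2 * (π : ℂ) * I * (w + h) / h = 2 * π * I * w / h + 2 * π * I by field_simp,
        Complex.exp_add, Complex.exp_two_pi_mul_I, mul_one]
    · have hw0 : w.im ≤ 0 := not_lt.mp hw
      have hw' : (w + h).im ≤ 0 := by simpa using hw0
      simp only [Function.comp_apply]
      rw [ofComplex_apply_eq_of_im_nonpos hw' hw0]
  zero := by
    have hcont : ContinuousAt (h57_primCusp h g) 0 :=
      (h57_hasDerivAt_primCusp hh hg (mem_ball_self one_pos)).continuousAt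
    have h0 : h57_primCusp h g 0 = 0 := h57_primCusp_zero hh hg
    have ht : Tendsto (fun τ : ℍ => h57_primCusp h g (Periodic.qParam h τ)) atImInfty (𝓝 0) := by
      have := hcont.tendsto.comp (qParam_tendsto_atImInfty hh)
      rwa [h0] at this
    exact ht


open Derivative in
/-- Task 3 statement: a periodic cuspidal holomorphic function has a periodic cuspidal
`D`-primitive. -/
theorem h57_exists_primitive {h : ℝ} (hh : 0 < h) {g : ℍ → ℂ} (hg : IsCuspPer h g) :
    ∃ G : ℍ → ℂ, IsCuspPer h G ∧ D G = g := by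
  refine ⟨(2 * π * I : ℂ) • h57_prim h g, (h57_cuspPer_prim hh hg).smul _, ?_⟩
  funext τ
  have h1 : HasDerivAt (((2 * π * I : ℂ) • h57_prim h g) ∘ ofComplex) ((2 * π * I : ℂ) * g τ) (τ : ℂ) := by
    have := (h57_hasDerivAt_prim hh hg τ).const_mul (2 * π * I : ℂ)
    exact this
  show (2 * π * I : ℂ)⁻¹ * deriv (((2 * π * I : ℂ) • h57_prim h g) ∘ ofComplex) (τ : ℂ) = g τ
  rw [h1.deriv, ← mul_assoc, inv_mul_cancel₀ Complex.two_pi_I_ne_zero, one_mul]

end Fermat.Agent.S22
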